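import Fermat.Agent.A2.Alg.H609.PuritySmooth

/-!
# RIBET wall-p, W-EIS leaf CUSP — local core: purity at a smooth point WITHOUT (H2)  (helper644)

`A2.H609.exists_unit_mul_pow_of_smooth` proves `u = ε f ^ m` at a smooth point of the special
fibre from (H1) `m ∣ ord_𝔓 u` at the horizontal primes AND (H2) `ū` is a unit times an `m`-th
power on the branch.  In wall A2 (H2) was free (constant residue).  At the cusps of the wall at
`p` the residue of a Kummer generator is NOT constant, and (H2) is exactly what has to be proved.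

Here: **(H1) ⟹ (H2)** at a smooth point, by the multiplicity identity
`ℓ(R/(u, π)) = m • ℓ(R/(I₁ + (π)))` of `A2.H609` and `ℓ(R/(u, π)) = ord ū`.

* `exists_associated_pow_of_smooth`  : (H1) ⟹ (H2)   (local ring);
* `dvd_of_mk_eq_unit_mul_pow`        : the same as `m ∣ N` when `ū = ε x̄ ^ N`;
* `exists_unit_mul_pow_of_smooth_h1` : (H1) ⟹ `u = ε f ^ m`   (local ring);
* `exists_pureAt_smooth_of_unitAt`   : chart form, the strengthening of
  `A2.H609.exists_pureAt_smooth` with `hs` (constant residue on `p`) replaced by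
  "`u` is a unit at `p`";
* `pureAt_smooth_of_locUnit`         : the same in the vocabulary of `A2.Alg` (`ChartCtx`,
  `SSChart`, `DivisibleDiv`, `LocUnit`, `PureAt`): the strengthening of
  `A2.Alg.H609.purity_smooth` with `IsSplit` replaced by `LocUnit` on the component through `n`.

Mathlib + landed `A2.H609`, `A2.Alg.H609` only.
-/

set_option autoImplicit false

namespace Fermat.Agent.Ribet.H644

open Ideal Fermat.Agent.A2.H609 Fermat.Agent.A2.H849

section LocalRing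

variable {R : Type*} [CommRing R] [IsDomain R] [IsIntegrallyClosed R] [IsNoetherianRing R]
  [IsLocalRing R]

/-- At a smooth point, (H1) forces the order of `ū` on the branch to be divisible by `m`. -/
theorem dvd_of_mk_eq_unit_mul_pow {u π x : R} {m N : ℕ} (hm : m ≠ 0) (hπ0 : π ≠ 0)
    (𝔭 : Ideal R) [𝔭.IsPrime] [IsDiscreteValuationRing (R ⧸ 𝔭)] (h𝔭 : 𝔭 = Ideal.span {π})
    (hu : u ∉ 𝔭)
    (H1 : ∀ 𝔓 ∈ (Ideal.span {u}).minimalPrimes, π ∉ 𝔓 → ∃ f r : R, r ∉ 𝔓 ∧ f ^ m = u * r)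
    (hx : Irreducible (Ideal.Quotient.mk 𝔭 x)) {ε : (R ⧸ 𝔭)ˣ}
    (hε : Ideal.Quotient.mk 𝔭 u = ε * (Ideal.Quotient.mk 𝔭 x) ^ N) : m ∣ N := by
  have hπ𝔭 : π ∈ 𝔭 := by
    rw [h𝔭]
    exact Ideal.mem_span_singleton_self π
  have h𝔭𝔪 : 𝔭 ≤ IsLocalRing.maximalIdeal R :=
    IsLocalRing.le_maximalIdeal (Ideal.IsPrime.ne_top inferInstance)
  have hu0 : u ≠ 0 := by
    rintro rfl
    exact hu 𝔭.zero_mem
  have h𝔪 := maximalIdeal_le_span_sup 𝔭 hx
  have hreg : ∀ z : R, π ∣ u * z → π ∣ z := by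
    intro z hz
    have h1 : u * z ∈ 𝔭 := by
      rw [h𝔭]
      exact Ideal.mem_span_singleton.mpr hz
    rcases Ideal.IsPrime.mem_or_mem inferInstance h1 with h | h
    · exact absurd h hu
    · rw [h𝔭] at h
      exact Ideal.mem_span_singleton.mp h
  have huπ : ∀ 𝔮 : Ideal R, 𝔮.IsPrime → u ∈ 𝔮 → π ∈ 𝔮 →
      𝔮 = IsLocalRing.maximalIdeal R := by
    intro 𝔮 h𝔮 hu𝔮 hπ𝔮
    have hle : 𝔭 ≤ 𝔮 := by
      rw [h𝔭, Ideal.span_singleton_le_iff_mem]
      exact hπ𝔮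
    have hx𝔮 : x ∈ 𝔮 := mem_of_le_of_mk_eq 𝔭 hε h𝔮 hle hu𝔮
    refine le_antisymm (IsLocalRing.le_maximalIdeal h𝔮.ne_top) (h𝔪.trans ?_)
    exact sup_le ((Ideal.span_singleton_le_iff_mem _).mpr hx𝔮) hle
  have H1' : ∀ 𝔓 : Ideal R, 𝔓.IsPrime → u ∈ 𝔓 → π ∉ 𝔓 →
      ∃ f r : R, r ∉ 𝔓 ∧ f ^ m = u * r := fun 𝔓 h𝔓 hu𝔓 hπ𝔓 =>
    H1 𝔓 (mem_minimalPrimes_of_mem_of_notMem hu0 (h𝔭𝔪 hπ𝔭) huπ h𝔓 hu𝔓 hπ𝔓) hπ𝔓
  obtain ⟨t, r, k, ht, hk⟩ := exists_generator hm hu0 (h𝔭𝔪 hπ𝔭) huπ H1'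
  -- `(u, π) = (x ^ N) + 𝔭`
  have hideal : Ideal.span {u, π} = Ideal.span {x ^ N} ⊔ 𝔭 := by
    apply le_antisymm
    · rw [Ideal.span_le]
      rintro z (rfl | rfl)
      · obtain ⟨e₀, he₀⟩ := Ideal.Quotient.mk_surjective ((ε : (R ⧸ 𝔭)ˣ) : R ⧸ 𝔭)
        have h1 : z - e₀ * x ^ N ∈ 𝔭 := by
          rw [← Ideal.Quotient.eq, map_mul, map_pow, he₀, hε]
        have h2 : z = x ^ N * e₀ + (z - e₀ * x ^ N) := by ring
        change z ∈ Ideal.span {x ^ N} ⊔ 𝔭
        rw [h2]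
        exact Ideal.add_mem _
          (Ideal.mem_sup_left (Ideal.mem_span_singleton.mpr (Dvd.intro e₀ rfl)))
          (Ideal.mem_sup_right h1)
      · exact Ideal.mem_sup_right hπ𝔭
    · refine sup_le ?_ ?_
      · rw [Ideal.span_singleton_le_iff_mem]
        obtain ⟨e, he⟩ := exists_pow_sub_mul_mem 𝔭 hε
        rw [h𝔭, Ideal.mem_span_singleton] at he
        obtain ⟨c, hc⟩ := he
        have h : x ^ N = e * u + c * π := by
          have : x ^ N = (x ^ N - u * e) + u * e := by ring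
          rw [this, hc]
          ring
        rw [h]
        exact Ideal.add_mem _
          (Ideal.mul_mem_left _ _ (Ideal.subset_span (by simp)))
          (Ideal.mul_mem_left _ _ (Ideal.subset_span (by simp)))
      · rw [h𝔭, Ideal.span_singleton_le_iff_mem]
        exact Ideal.subset_span (by simp)
  have hlen : relLen (Ideal.span {u, π}) (⊤ : Ideal R) = (N : ℕ∞) := by
    rw [hideal]
    exact relLen_branch_pow 𝔭 hx N
  have hfin : relLen (Ideal.span {u, π}) (⊤ : Ideal R) ≠ ⊤ := by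
    rw [hlen]
    exact ENat.natCast_ne_top N
  have h2 := relLen_span_pair_eq_nsmul (hm := hm) hu0 hπ0 hreg ht hk hfin
  rw [hlen, nsmul_eq_mul] at h2
  -- the colength is finite
  cases hc : relLen (rootIdeal u m hm 1 ⊔ Ideal.span {π}) (⊤ : Ideal R) with
  | top =>
    rw [hc] at h2
    have hm' : (m : ℕ∞) ≠ 0 := by exact_mod_cast hm
    rw [ENat.mul_top hm'] at h2
    exact absurd h2 (ENat.natCast_ne_top N)
  | coe c =>
    rw [hc] at h2
    have h3 : N = m * c := by exact_mod_cast h2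
    exact ⟨c, h3⟩

/-- **(H1) ⟹ (H2) at a smooth point of the special fibre.** -/
theorem exists_associated_pow_of_smooth {u π : R} {m : ℕ} (hm : m ≠ 0) (hπ0 : π ≠ 0)
    (𝔭 : Ideal R) [𝔭.IsPrime] [IsDiscreteValuationRing (R ⧸ 𝔭)] (h𝔭 : 𝔭 = Ideal.span {π})
    (hu : u ∉ 𝔭)
    (H1 : ∀ 𝔓 ∈ (Ideal.span {u}).minimalPrimes, π ∉ 𝔓 → ∃ f r : R, r ∉ 𝔓 ∧ f ^ m = u * r) :
    ∃ v : R ⧸ 𝔭, Associated (v ^ m) (Ideal.Quotient.mk 𝔭 u) := by
  obtain ⟨ϖ, hϖ⟩ := IsDiscreteValuationRing.exists_irreducible (R ⧸ 𝔭)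
  obtain ⟨x, rfl⟩ := Ideal.Quotient.mk_surjective ϖ
  have hu0 : Ideal.Quotient.mk 𝔭 u ≠ 0 := by
    rwa [Ne, Ideal.Quotient.eq_zero_iff_mem]
  obtain ⟨N, hN⟩ := IsDiscreteValuationRing.associated_pow_irreducible hu0 hϖ
  obtain ⟨ε, hε⟩ := hN.symm
  have hε' : Ideal.Quotient.mk 𝔭 u = ε * (Ideal.Quotient.mk 𝔭 x) ^ N := by
    rw [← hε, mul_comm]
  obtain ⟨c, rfl⟩ := dvd_of_mk_eq_unit_mul_pow hm hπ0 𝔭 h𝔭 hu H1 hϖ hε'
  refine ⟨(Ideal.Quotient.mk 𝔭 x) ^ c, ?_⟩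
  rw [← pow_mul, mul_comm c m]
  exact ⟨ε, by rw [hε', mul_comm]⟩

/-- **Purity at a smooth point of the special fibre from (H1) alone.** -/
theorem exists_unit_mul_pow_of_smooth_h1 {u π : R} {m : ℕ} (hm : m ≠ 0) (hπ0 : π ≠ 0)
    (𝔭 : Ideal R) [𝔭.IsPrime] [IsDiscreteValuationRing (R ⧸ 𝔭)] (h𝔭 : 𝔭 = Ideal.span {π})
    (hu : u ∉ 𝔭)
    (H1 : ∀ 𝔓 ∈ (Ideal.span {u}).minimalPrimes, π ∉ 𝔓 → ∃ f r : R, r ∉ 𝔓 ∧ f ^ m = u * r) :
    ∃ (f : R) (ε : Rˣ), u = ε * f ^ m :=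
  exists_unit_mul_pow_of_smooth_min hm hπ0 𝔭 h𝔭 hu H1
    (exists_associated_pow_of_smooth hm hπ0 𝔭 h𝔭 hu H1)

end LocalRing

section Chart

variable {B : Type*} [CommRing B] [IsDomain B] [IsNoetherianRing B] [IsIntegrallyClosed B]
variable {F : Type*} [Field F] [Algebra B F] [IsFractionRing B F]

/-- **Purity at a smooth point of a semistable chart, for a function which is only assumed to be
a UNIT on the component through the point** (no hypothesis on its residue).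
`n` a closed point on the component `p` and not on the component `p'`, `p ≠ n`. -/
theorem exists_pureAt_smooth_of_unitAt {w : B} {m : ℕ} (hm : m ≠ 0)
    (p p' n : Ideal B) [p.IsPrime] [p'.IsPrime] [n.IsPrime]
    [IsDedekindDomain (B ⧸ p)]
    (hinf : p ⊓ p' = Ideal.span {w}) (h₁₂ : ¬ p ≤ p') (h₂₁ : ¬ p' ≤ p)
    (h₁ : p ≤ n) (hne : p ≠ n) (h₂ : ¬ p' ≤ n)
    (u : F)
    (hdiv : ∀ V : ValuationSubring F, IsDiscreteValuationRing V →
      (∀ b : B, algebraMap B F b ∈ V) → (algebraMap B F w)⁻¹ ∈ V →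
      ∃ h u₀ : F, u₀ ∈ V ∧ u₀⁻¹ ∈ V ∧ u = u₀ * h ^ m)
    (hs : UnitAt p u) :
    ∃ d : F, d ≠ 0 ∧
      (∃ a b : B, a ∉ n ∧ b ∉ n ∧ u * d ^ m * algebraMap B F b = algebraMap B F a) ∧
      (∃ a b : B, a ∉ p ∧ b ∉ p ∧ d * algebraMap B F b = algebraMap B F a) ∧
      (∃ a b : B, a ∉ p' ∧ b ∉ p' ∧ d * algebraMap B F b = algebraMap B F a) := by
  have hinj : Function.Injective (algebraMap B F) := IsFractionRing.injective B F
  obtain ⟨a, b, ha, hb, hub⟩ := hs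
  set u' : B := a * b ^ (m - 1) with hu'def
  have hu'F : algebraMap B F u' = u * algebraMap B F b ^ m := by
    obtain ⟨k, hk⟩ := Nat.exists_eq_succ_of_ne_zero hm
    have hk1 : m - 1 = k := by omega
    have hk2 : m = k + 1 := by omega
    rw [hu'def, hk1, hk2, map_mul, map_pow, ← hub, pow_succ]
    ring
  have hu'n : u' ∉ p := by
    intro h
    rcases Ideal.IsPrime.mem_or_mem inferInstance h with h3 | h3
    · exact ha h3
    · exact hb (Ideal.IsPrime.mem_of_pow_mem inferInstance _ h3)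
  have hbF : algebraMap B F b ≠ 0 := by
    intro h0
    apply hb
    rw [hinj (by rw [h0, map_zero] : algebraMap B F b = algebraMap B F 0)]
    exact p.zero_mem
  have hw0 : w ≠ 0 := ne_zero_of_inf_eq_span p p' hinf h₁₂ h₂₁
  have hwF : algebraMap B F w ≠ 0 := fun h0 => hw0 (hinj (by rw [h0, map_zero]))
  -- the local ring
  obtain ⟨hP, hPw, hdvr⟩ :=
    Fermat.Agent.A2.H372.smooth_local_data (locAt F n) hinf h₁ hne h₂
  set U : locAt F n := algebraMap B (locAt F n) u' with hUdef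
  have hUF : (U : F) = u * algebraMap B F b ^ m := hu'F
  have hU : U ∉ p.map (algebraMap B (locAt F n)) := fun h =>
    hu'n ((algebraMap_mem_map_iff h₁ u').1 h)
  have hU0 : U ≠ 0 := by
    intro h0
    apply hU
    rw [h0]
    exact Ideal.zero_mem _
  have hπ0 : algebraMap B (locAt F n) w ≠ 0 := by
    intro h0
    apply hwF
    have : ((algebraMap B (locAt F n) w : locAt F n) : F) = 0 := by rw [h0]; rfl
    exact this
  -- (H1)
  have H1 : ∀ 𝔓 ∈ (Ideal.span {U}).minimalPrimes, algebraMap B (locAt F n) w ∉ 𝔓 →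
      ∃ f r : locAt F n, r ∉ 𝔓 ∧ f ^ m = U * r := by
    intro 𝔓 h𝔓 hw𝔓
    refine exists_pow_eq_mul_of_divisible (K := F) hU0 hm h𝔓 ?_
    intro V hV hle hinv
    obtain ⟨h, u₀, hu₀, hu₀', huh⟩ := hdiv V hV
      (fun b => hle (algebraMap B (locAt F n) b)) (hinv _ hw𝔓)
    refine ⟨h * algebraMap B F b, u₀, hu₀, hu₀', ?_⟩
    rw [algebraMap_locAt_apply, hUF, huh]
    ring
  -- purity in the local ring, from (H1) alone
  obtain ⟨f, ε, hfε⟩ := exists_unit_mul_pow_of_smooth_h1 (R := locAt F n) hm hπ0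
    (p.map (algebraMap B (locAt F n))) hPw hU H1
  have hf0 : f ≠ 0 := by
    rintro rfl
    rw [zero_pow hm, mul_zero] at hfε
    exact hU0 hfε
  have hfF : (f : F) ≠ 0 := fun h => hf0 (Subtype.ext h)
  have hf₁ : f ∉ p.map (algebraMap B (locAt F n)) := by
    intro h
    apply hU
    rw [hfε]
    exact Ideal.mul_mem_left _ _ (Ideal.pow_mem_of_mem _ h m (Nat.pos_of_ne_zero hm))
  have hfεF : u * algebraMap B F b ^ m = ((ε : locAt F n) : F) * (f : F) ^ m := by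
    rw [← hUF, hfε]
    rfl
  -- the first approximation `d₀ = b / f`
  set d₀ : F := algebraMap B F b / (f : F) with hd₀def
  have hd₀0 : d₀ ≠ 0 := div_ne_zero hbF hfF
  have hd₀n : UnitAt n (u * d₀ ^ m) := by
    obtain ⟨a', s', ha', hs', h'⟩ := exists_frac_of_isUnit_locAt (F := F) n ε.isUnit
    refine ⟨a', s', ha', hs', ?_⟩
    rw [← h', hd₀def, div_pow, ← mul_div_assoc, hfεF]
    field_simp
  have hd₀p : UnitAt p d₀ := by
    obtain ⟨φ, s, hφ, hs, h'⟩ := exists_frac_of_notMem_map (F := F) (p := p) (n := n) hf₁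
    refine ⟨b * s, φ, ?_, hφ, ?_⟩
    · intro h
      rcases Ideal.IsPrime.mem_or_mem inferInstance h with h3 | h3
      · exact hb h3
      · exact hs (h₁ h3)
    · rw [← h', map_mul, hd₀def]
      field_simp
  -- correction at the other component
  obtain ⟨g, hgn, ag, bg, hag, hbg, hg⟩ := exists_uniformizer_away p p' n hinf h₁₂ h₁ h₂
  have hgp : g ∉ p := fun h => hgn (h₁ h)
  have hgF : algebraMap B F g ≠ 0 := by
    intro h0
    apply hgn
    rw [hinj (by rw [h0, map_zero] : algebraMap B F g = algebraMap B F 0)]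
    exact n.zero_mem
  have hgw : UnitAt p' (algebraMap B F g / algebraMap B F w) := by
    refine ⟨ag, bg, hag, hbg, ?_⟩
    rw [div_mul_eq_mul_div, ← map_mul, hg, map_mul]
    field_simp
  obtain ⟨k₁, k₂, e, he, hek⟩ := exists_unitAt_decomp (F := F) p p' hinf h₁₂ d₀ hd₀0
  have hgnU : UnitAt n (algebraMap B F g) := UnitAt.algebraMap hgn
  have hgpU : UnitAt p (algebraMap B F g) := UnitAt.algebraMap hgp
  refine ⟨d₀ * (algebraMap B F g ^ k₂ * (algebraMap B F g ^ k₁)⁻¹),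
    mul_ne_zero hd₀0 (mul_ne_zero (pow_ne_zero _ hgF) (inv_ne_zero (pow_ne_zero _ hgF))), ?_, ?_, ?_⟩
  · have h3 : UnitAt n (u * d₀ ^ m *
        (algebraMap B F g ^ k₂ * (algebraMap B F g ^ k₁)⁻¹) ^ m) :=
      hd₀n.mul (((hgnU.pow k₂).mul (hgnU.pow k₁).inv).pow m)
    have h4 : u * (d₀ * (algebraMap B F g ^ k₂ * (algebraMap B F g ^ k₁)⁻¹)) ^ m =
        u * d₀ ^ m * (algebraMap B F g ^ k₂ * (algebraMap B F g ^ k₁)⁻¹) ^ m := by
      rw [mul_pow, mul_assoc]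
    rw [← h4] at h3
    exact h3
  · exact hd₀p.mul ((hgpU.pow k₂).mul (hgpU.pow k₁).inv)
  · have h3 : UnitAt p' (e * ((algebraMap B F g / algebraMap B F w) ^ k₂ *
        ((algebraMap B F g / algebraMap B F w) ^ k₁)⁻¹)) :=
      he.mul ((hgw.pow k₂).mul (hgw.pow k₁).inv)
    have h4 : d₀ * (algebraMap B F g ^ k₂ * (algebraMap B F g ^ k₁)⁻¹) =
        e * ((algebraMap B F g / algebraMap B F w) ^ k₂ *
          ((algebraMap B F g / algebraMap B F w) ^ k₁)⁻¹) :=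
      mul_pow_inv_eq_of_mul_pow_eq hwF hgF k₁ k₂ hek
    rw [← h4] at h3
    exact h3

end Chart

section AlgChart

open Fermat.Agent.A2 Fermat.Agent.A2.Alg Fermat.Agent.A2.Alg.H609

variable {R E F : Type*} [CommRing R] [IsDomain R] [IsDiscreteValuationRing R]
  [Field E] [CharZero E] [Algebra R E] [IsFractionRing R E]
  [Field F] [Algebra E F] [Algebra R F] [IsScalarTower R E F]

/-- **Purity at a smooth closed point of a semistable chart, `A2.Alg` vocabulary**: `u` with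
`m ∣ div u` on the generic fibre, a unit on the component through `n`
(no hypothesis on the residue of `u`, none on the other component). -/
theorem pureAt_smooth_of_locUnit (m : ℕ) (hm : 0 < m)
    (w : R) (x : F) (B : Subalgebra R F) (hB : ChartCtx E w x B)
    (c : SSChart w B)
    (u : F) (hdiv : DivisibleDiv E m u)
    (n : Ideal B) (hn : n.IsPrime) (hwn : algebraMap R B w ∈ n)
    (h1 : ¬ (c.p₁ ≤ n ∧ c.p₂ ≤ n))
    (hs₁ : c.p₁ ≤ n → LocUnit B c.p₁ u) (hs₂ : c.p₂ ≤ n → LocUnit B c.p₂ u) :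
    PureAt B c m u n := by
  obtain ⟨hnoeth, hic, hfrac⟩ := H34.chart_instances' w x B hB
  have hp₁ : c.p₁.IsPrime := c.prime₁
  have hp₂ : c.p₂.IsPrime := c.prime₂
  have hn₁ : IsIntegrallyClosed (B ⧸ c.p₁) := c.normal₁
  have hn₂ : IsIntegrallyClosed (B ⧸ c.p₂) := c.normal₂
  have hw : algebraMap R B w ∈ c.p₁ ⊓ c.p₂ := by
    rw [c.inf_eq]
    exact Ideal.mem_span_singleton_self _
  have hd₁ : IsDedekindDomain (B ⧸ c.p₁) := isDedekindDomain_quotient_chart w x B hB c.p₁ hw.1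
  have hd₂ : IsDedekindDomain (B ⧸ c.p₂) := isDedekindDomain_quotient_chart w x B hB c.p₂ hw.2
  have hor : c.p₁ ≤ n ∨ c.p₂ ≤ n := by
    have hle : c.p₁ * c.p₂ ≤ n := by
      refine le_trans Ideal.mul_le_inf ?_
      rw [c.inf_eq, Ideal.span_le, Set.singleton_subset_iff]
      exact hwn
    exact (Ideal.IsPrime.mul_le hn).1 hle
  rcases hor with h | h
  · have h2 : ¬ c.p₂ ≤ n := fun h' => h1 ⟨h, h'⟩
    by_cases hne : c.p₁ = n
    · refine ⟨1, one_ne_zero, ?_, locUnit_one B c.p₁ hp₁, locUnit_one B c.p₂ hp₂⟩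
      rw [one_pow, mul_one, ← hne]
      exact hs₁ h
    · exact exists_pureAt_smooth_of_unitAt (B := B) (F := F) hm.ne' c.p₁ c.p₂ n
        c.inf_eq c.not_le₁₂ c.not_le₂₁ h hne h2 u
        (hdiv_of_divisibleDiv w hB.hw B m u hdiv) (hs₁ h)
  · have h2 : ¬ c.p₁ ≤ n := fun h' => h1 ⟨h', h⟩
    by_cases hne : c.p₂ = n
    · refine ⟨1, one_ne_zero, ?_, locUnit_one B c.p₁ hp₁, locUnit_one B c.p₂ hp₂⟩
      rw [one_pow, mul_one, ← hne]
      exact hs₂ h
    · have hinf : c.p₂ ⊓ c.p₁ = Ideal.span {algebraMap R B w} := by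
        rw [inf_comm]
        exact c.inf_eq
      obtain ⟨d, hd, hdn, hd₂', hd₁'⟩ :=
        exists_pureAt_smooth_of_unitAt (B := B) (F := F) hm.ne' c.p₂ c.p₁ n
          hinf c.not_le₂₁ c.not_le₁₂ h hne h2 u
          (hdiv_of_divisibleDiv w hB.hw B m u hdiv) (hs₂ h)
      exact ⟨d, hd, hdn, hd₁', hd₂'⟩

end AlgChart

end Fermat.Agent.Ribet.H644
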