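import Fermat.Agent.Ribet.H644.CuspGen
import Fermat.Agent.Ribet.H158.WallQGood

/-!
# RIBET, WALL-q leaf CUSP-q: `H158.WallQ.CuspPurityQGoodStatement`  (helper644)

From the core `H644.cuspGen` (CUSP-GEN at level `M q` with `HasAux M q`, ANY `m > 0`):

* `cuspGenInf`, `cuspGenZero` : CUSP-GEN at level `q * M'` for `IsRedInf` / `IsRedZero`
  (`q` prime, `q ∤ M'`, `HasAux M' q`: `q = 3 → 2 ∣ M'`, `q = 2 → 3 ∣ M'`);
* `cuspPurityAux`             : `NodeGenQ m q M' A g → FinGenQ m q M' A g` for a Kummer generator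
  `g` (`div g = m · D`), ANY `m > 0`;
* **`cuspPurityQGood : H158.WallQ.CuspPurityQGoodStatement`** (VERBATIM `WallQGood.lean`).
-/

set_option autoImplicit false
set_option linter.unusedSectionVars false
set_option linter.unusedVariables false
set_option linter.style.haveILetI false
set_option synthInstance.maxHeartbeats 400000
set_option maxHeartbeats 1600000

noncomputable section

namespace Fermat.Agent.Ribet.H644

open AlgebraicCurve ModularCurve HahnSeries
open Fermat.Agent.S24 Fermat.Agent.A2.H708 Fermat.Agent.A2.H528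
open Fermat.Agent.Ribet.H884 Fermat.Agent.Ribet.H997

/-- **CUSP-GEN at level `q * M'`**, reductions on `C∞`. -/
theorem cuspGenInf (m q M' : ℕ) [NeZero M'] [NeZero q] [NeZero (q * M')] (hq : q.Prime)
    (hqM : ¬ q ∣ M') (hAux : Fermat.Agent.S35.G.HasAux M' q) (hm : 0 < m)
    (A : ValuationSubring Kbar) (hA : A.LiesOverPrime q)
    (g : FF (q * M')) (hg0 : g ≠ 0)
    (hdiv : ∀ v : Place Kbar (FF (q * M')), (m : ℤ) ∣ v.ord g)
    (r : LaurentSeries (kA A)) (hr : IsRedInf (q * M') A g r)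
    (h : modularFunctionFieldFullC (kA A) M') (hh : (h : LaurentSeries (kA A)) = r)
    (Q : Place (kA A) (modularFunctionFieldFullC (kA A) M'))
    (hQ : Q.ord (jC (kA A) M') < 0) : (m : ℤ) ∣ Q.ord h := by
  have key : ∀ (N : ℕ) (hN : N = M' * q) (g : ↥(modularFunctionFieldBar N)), g ≠ 0 →
      (∀ v : Place Kbar ↥(modularFunctionFieldBar N), (m : ℤ) ∣ v.ord g) →
      IsRedSer A (g : LaurentSeries Kbar) r → (m : ℤ) ∣ Q.ord h := by
    intro N hN g hg0 hdiv hr
    subst hN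
    exact cuspGen M' q m hq hqM hAux hm A hA g hg0 hdiv r hr h hh Q hQ
  exact key (q * M') (Nat.mul_comm q M') g hg0 hdiv hr

/-- the divisor of `w_N g` is divisible by `m` if the divisor of `g` is. -/
theorem dvd_ord_wF644 (N : ℕ) [NeZero N] (m : ℕ) (g : FF N)
    (hdiv : ∀ v : Place Kbar (FF N), (m : ℤ) ∣ v.ord g) (v : Place Kbar (FF N)) :
    (m : ℤ) ∣ v.ord (wF N g) := by
  have h := Place.ord_smul (wF N) ((wF N)⁻¹ • v) g
  rw [smul_inv_smul] at h
  rw [h]
  exact hdiv _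

/-- **CUSP-GEN at level `q * M'`**, reductions on `C₀`. -/
theorem cuspGenZero (m q M' : ℕ) [NeZero M'] [NeZero q] [NeZero (q * M')] (hq : q.Prime)
    (hqM : ¬ q ∣ M') (hAux : Fermat.Agent.S35.G.HasAux M' q) (hm : 0 < m)
    (A : ValuationSubring Kbar) (hA : A.LiesOverPrime q)
    (g : FF (q * M')) (hg0 : g ≠ 0)
    (hdiv : ∀ v : Place Kbar (FF (q * M')), (m : ℤ) ∣ v.ord g)
    (r : LaurentSeries (kA A)) (hr : IsRedZero (q * M') A g r)
    (h : modularFunctionFieldFullC (kA A) M') (hh : (h : LaurentSeries (kA A)) = r)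
    (Q : Place (kA A) (modularFunctionFieldFullC (kA A) M'))
    (hQ : Q.ord (jC (kA A) M') < 0) : (m : ℤ) ∣ Q.ord h :=
  cuspGenInf m q M' hq hqM hAux hm A hA (wF (q * M') g)
    (by rwa [Ne, map_eq_zero_iff _ (wF (q * M')).injective])
    (dvd_ord_wF644 (q * M') m g hdiv) r hr h hh Q hQ

/-- **CUSP at an auxiliary-good level**, any torsion order `m > 0` (also `q ∣ m`). -/
theorem cuspPurityAux (m q M' : ℕ) [NeZero M'] [NeZero q] [NeZero (q * M')] (hq : q.Prime)
    (hqM : ¬ q ∣ M') (hAux : Fermat.Agent.S35.G.HasAux M' q) (hm : 0 < m)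
    (A : ValuationSubring Kbar) (hA : A.LiesOverPrime q)
    (g : FF (q * M')) (y : JZero (q * M')) (hK : IsKummerGen (q * M') m g y)
    (hNG : Fermat.Agent.Ribet.H158.WallQ.NodeGenQ m q M' A g) :
    Fermat.Agent.Ribet.H158.WallQ.FinGenQ m q M' A g := by
  obtain ⟨r₁, r₂, h1, h2, h3, h4⟩ := hNG
  obtain ⟨hg0, D, -, hD⟩ := hK
  have hdiv : ∀ v : Place Kbar (FF (q * M')), (m : ℤ) ∣ v.ord g := fun v => ⟨_, hD v⟩
  refine ⟨r₁, r₂, h1, h2, ?_, ?_⟩
  · obtain ⟨h, hh, h0, hfin⟩ := h3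
    refine ⟨h, hh, h0, fun Q => ?_⟩
    by_cases hQ : 0 ≤ Q.ord (jC (kA A) M')
    · exact hfin Q hQ
    · exact cuspGenInf m q M' hq hqM hAux hm A hA g hg0 hdiv r₁ h1 h hh Q (not_le.mp hQ)
  · obtain ⟨h, hh, h0, hfin⟩ := h4
    refine ⟨h, hh, h0, fun Q => ?_⟩
    by_cases hQ : 0 ≤ Q.ord (jC (kA A) M')
    · exact hfin Q hQ
    · exact cuspGenZero m q M' hq hqM hAux hm A hA g hg0 hdiv r₂ h2 h hh Q (not_le.mp hQ)

/-- **WALL-q leaf CUSP-q** (VERBATIM `H158.WallQ.CuspPurityQGoodStatement`). -/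
theorem cuspPurityQGood : Fermat.Agent.Ribet.H158.WallQ.CuspPurityQGoodStatement := by
  intro p n q M' _ _ _ hH A hA g y hK hNG
  have hAux : Fermat.Agent.S35.G.HasAux M' q := by
    refine ⟨fun h3 => ?_, fun h2 => absurd h2 hH.q_ne_two⟩
    rcases hH.good with h5 | ⟨-, h2⟩
    · omega
    · exact h2
  exact cuspPurityAux (p ^ n) q M' hH.q_prime hH.not_dvd hAux (pow_pos hH.p_prime.pos n)
    A hA g y hK hNG

end Fermat.Agent.Ribet.H644

end
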