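import Fermat.Agent.S15.H962.NewtonVal

/-!
# RIBET, leaf CUSP (purity at the cusps) — valuation-theoretic core  (helper644)

Mathlib + `S15.H962.NewtonVal` only.

* `isIntegral_of_forall_valuationSubring` : valuation criterion for integrality over a ring `R`
  mapping to a field `F`: `f` is integral over `R` as soon as `f` lies in every valuation subring of
  `F` containing the image of `R`.
* `div_pow_mem_of_isModularShape` : for `Φ` of modular shape of level `q` and `Φ(a, b) = 0`,
  every valuation subring containing `(a b)⁻¹` contains `a / b ^ q`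
  (Newton polygon at the cusps, integrality of `b` over `ℤ[a]` elsewhere).
-/

set_option autoImplicit false

namespace Fermat.Agent.Ribet.H644

open Polynomial Fermat.Agent.S15.H962

/-- **Valuation criterion for integrality.** -/
theorem isIntegral_of_forall_valuationSubring {R F : Type*} [CommRing R] [Field F] [Algebra R F]
    (f : F) (h : ∀ V : ValuationSubring F, (∀ r : R, algebraMap R F r ∈ V) → f ∈ V) :
    IsIntegral R f := by
  have h1 : f ∈ (⨅ V : {V : ValuationSubring F // Set.range (algebraMap R F) ⊆ V.toSubring},
      V.1.toSubring) := by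
    rw [Subring.mem_iInf]
    rintro ⟨V, hV⟩
    exact h V fun r => hV ⟨r, rfl⟩
  rw [iInf_valuationSubring_superset] at h1
  have h2 : IsIntegral (Subring.closure (Set.range (algebraMap R F))) f := h1
  obtain ⟨p, hp, hpf⟩ := h2
  have hcl : Subring.closure (Set.range (algebraMap R F)) = (algebraMap R F).range := by
    rw [← RingHom.coe_range, Subring.closure_eq]
  set p' : F[X] := p.map (Subring.subtype _) with hp'
  have hp'm : p'.Monic := hp.map _
  have hlift : p' ∈ Polynomial.lifts (algebraMap R F) := by
    rw [Polynomial.lifts_iff_coeff_lifts]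
    intro n
    rw [hp', Polynomial.coeff_map]
    exact (SetLike.ext_iff.mp hcl _).mp (p.coeff n).2
  obtain ⟨q, hq, -, hqm⟩ := Polynomial.lifts_and_natDegree_eq_and_monic hlift hp'm
  refine ⟨q, hqm, ?_⟩
  rw [← Polynomial.eval_map, hq, hp', Polynomial.eval_map]
  exact hpf

section Newton

variable {F : Type*} [Field F]

/-- integer polynomials preserve a valuation subring -/
theorem eval₂_int_mem (V : ValuationSubring F) {a : F} (ha : a ∈ V) (P : ℤ[X]) :
    P.eval₂ (Int.castRingHom F) a ∈ V := by
  rw [Polynomial.eval₂_eq_sum_range]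
  refine sum_mem fun i _ => ?_
  refine V.mul_mem _ _ ?_ (pow_mem ha i)
  rw [eq_intCast]
  exact intCast_mem V _

/-- **No pole of `a / b ^ q` where `a b` is invertible**, `Φ(a, b) = 0`, `Φ` of modular shape. -/
theorem div_pow_mem_of_isModularShape {q : ℕ} (hq : 0 < q) {Φ : ℤ[X][X]}
    (hΦ : IsModularShape q Φ) {a b : F} (ha : a ≠ 0) (hb : b ≠ 0) (h : eval2 Φ a b = 0)
    (V : ValuationSubring F) (hV : (a * b)⁻¹ ∈ V) : a * (b ^ q)⁻¹ ∈ V := by
  classical
  set v := V.valuation with hv
  have hva0 : v a ≠ 0 := (Valuation.ne_zero_iff v).mpr ha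
  have hvb0 : v b ≠ 0 := (Valuation.ne_zero_iff v).mpr hb
  have hab : 1 ≤ v a * v b := by
    have h1 : v ((a * b)⁻¹) ≤ 1 := (V.valuation_le_one_iff _).mpr hV
    rw [map_inv₀, map_mul] at h1
    have h0 : v a * v b ≠ 0 := mul_ne_zero hva0 hvb0
    exact (inv_le_one₀ (zero_lt_iff.mpr h0)).mp h1
  rw [← V.valuation_le_one_iff, map_mul, map_inv₀, map_pow]
  by_cases hcase : 1 < v a
  · rcases val_root_of_isModularShape v hq hΦ hcase h with h1 | h1
    · rw [h1, ← pow_mul]
      have h2 : v a ≤ v a ^ (q * q) := by
        calc v a = v a ^ 1 := (pow_one _).symm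
          _ ≤ v a ^ (q * q) := pow_le_pow_right₀ hcase.le (Nat.mul_pos hq hq)
      have h3 : (0 : V.ValueGroup) < v a ^ (q * q) := zero_lt_iff.mpr (pow_ne_zero _ hva0)
      rw [← div_eq_mul_inv]
      exact (div_le_one₀ h3).mpr h2
    · rw [h1, mul_inv_cancel₀ hva0]
  · have hale : v a ≤ 1 := not_lt.mp hcase
    have haV : a ∈ V := (V.valuation_le_one_iff _).mp hale
    -- `b` is integral
    have hble : v b ≤ 1 := by
      by_contra hcon
      have hb1 : 1 < v b := not_le.mp hcon
      have hsum := eval2_eq_sum (K := F) Φ a b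
      rw [h, hΦ.natDegree_eq] at hsum
      have hne : ∑ k ∈ Finset.range (q + 1 + 1),
          (Φ.coeff k).eval₂ (Int.castRingHom F) a * b ^ k ≠ 0 := by
        refine sum_ne_zero_of_dominant v _ _ (q + 1) (by simp) ?_ ?_
        · have hc : Φ.coeff (q + 1) = 1 := by
            have := hΦ.monic
            rw [Polynomial.Monic, Polynomial.leadingCoeff, hΦ.natDegree_eq] at this
            exact this
          rw [hc]
          simp [hb]
        · intro i hi hi'
          have hc : Φ.coeff (q + 1) = 1 := by
            have := hΦ.monic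
            rw [Polynomial.Monic, Polynomial.leadingCoeff, hΦ.natDegree_eq] at this
            exact this
          have hilt : i < q + 1 := by
            have := Finset.mem_range.mp hi
            omega
          rw [hc, map_mul, map_mul, map_pow, map_pow]
          have h1 : v ((1 : ℤ[X]).eval₂ (Int.castRingHom F) a) = 1 := by simp
          rw [h1, one_mul]
          have h2 : v ((Φ.coeff i).eval₂ (Int.castRingHom F) a) ≤ 1 :=
            (V.valuation_le_one_iff _).mpr (eval₂_int_mem V haV _)
          calc v ((Φ.coeff i).eval₂ (Int.castRingHom F) a) * v b ^ i ≤ 1 * v b ^ i := by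
                gcongr
            _ = v b ^ i := one_mul _
            _ < v b ^ (q + 1) := pow_lt_pow_right₀ hb1 hilt
      exact hne hsum.symm
    have ha1 : v a = 1 := by
      refine le_antisymm hale ?_
      calc (1 : V.ValueGroup) ≤ v a * v b := hab
        _ ≤ v a * 1 := by gcongr
        _ = v a := mul_one _
    have hb1 : v b = 1 := by
      refine le_antisymm hble ?_
      calc (1 : V.ValueGroup) ≤ v a * v b := hab
        _ ≤ 1 * v b := by gcongr
        _ = v b := one_mul _
    rw [ha1, hb1, one_pow, inv_one, mul_one]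

end Newton

end Fermat.Agent.Ribet.H644
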