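import Fermat.Agent.Ribet.H644.CuspRed
import Fermat.Agent.Ribet.H644.CuspVal
import Fermat.Agent.Ribet.H644.SmoothDiv
import Fermat.Agent.Ribet.H884.EisSpec
import Fermat.Agent.S35.G.H862.Model
import Fermat.Agent.S35.H433.AlgFrob
import Fermat.Agent.S15.H386.ModShapeExists
import Fermat.Agent.A2.Mod.H873.L13

/-!
# RIBET, leaf CUSP (purity at the cusps) — the cusps on the chart at infinity  (helper644)

Level `M q`, good level `E`, `B = chartAlg (x⁻¹)`, `x = j j_q`, `V = V∞`, `Q` a place of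
`F_k = k(X₀(M))` with `ord_Q j < 0` (a cusp of the component `C∞`).

* `redE_inv`, `redE_jE_one`, `redE_jE_q`, `redE_xinv`     : values of the reduction;
* `redE_mem_of_mem_chart`  : `ρ(B) ⊆ O_Q`   (integrality);
* `cuspIdeal`              : `n = {b ∈ B | ρ b ∈ m_Q}`, prime, `p₁ ≤ n`, `w ∈ n`;
* `eprime_mem_chart`       : `e' = j / j_q ^ q ∈ B`   (Newton polygon of `Φ_q`);
* `not_le_cuspIdeal`       : **no node at infinity**, `¬ p₂ ≤ n`;
* `dvd_ord_of_pureAt`      : `PureAt B c m u n`, `u` a unit of `V∞`  ⟹  `m ∣ ord_Q (ρ u)`.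
-/

set_option autoImplicit false
set_option linter.unusedSectionVars false
set_option linter.unusedVariables false
set_option linter.style.haveILetI false
set_option synthInstance.maxHeartbeats 400000
set_option maxHeartbeats 1600000

noncomputable section

namespace Fermat.Agent.Ribet.H644

open AlgebraicCurve ModularCurve HahnSeries
open Fermat.Agent.S24 Fermat.Agent.A2.H708 Fermat.Agent.Ribet.H884 Fermat.Agent.Ribet.H997
open Fermat.Agent.A2 Fermat.Agent.A2.Alg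
open Fermat.Agent.S35.G (CutBy)

section Values

variable {M q : ℕ} [NeZero M] [NeZero q] {A : ValuationSubring Kbar}
  {E : IntermediateField ℚ Kbar}

theorem redE_inv (hq : q.Prime) (hqM : ¬ q ∣ M) (hA : A.LiesOverPrime q)
    {V : ValuationSubring ↥(Mod.FE E (M * q))} (hV : Mod.IsVinf A E (M * q) V)
    (u : ↥(Mod.FE E (M * q))) (hu : u ∈ V) (hu' : u⁻¹ ∈ V) (hu0 : u ≠ 0) :
    redE E hq hqM hA hV ⟨u⁻¹, hu'⟩ = (redE E hq hqM hA hV ⟨u, hu⟩)⁻¹ := by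
  have h1 : (⟨u, hu⟩ : ↥V) * ⟨u⁻¹, hu'⟩ = 1 := Subtype.ext (mul_inv_cancel₀ hu0)
  have h2 := congrArg (redE E hq hqM hA hV) h1
  rw [map_mul, map_one] at h2
  exact eq_inv_of_mul_eq_one_right h2

theorem redE_ne_zero_of_unit (hq : q.Prime) (hqM : ¬ q ∣ M) (hA : A.LiesOverPrime q)
    {V : ValuationSubring ↥(Mod.FE E (M * q))} (hV : Mod.IsVinf A E (M * q) V)
    (u : ↥(Mod.FE E (M * q))) (hu : u ∈ V) (hu' : u⁻¹ ∈ V) (hu0 : u ≠ 0) :
    redE E hq hqM hA hV ⟨u, hu⟩ ≠ 0 := by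
  intro h0
  have h1 : (⟨u, hu⟩ : ↥V) * ⟨u⁻¹, hu'⟩ = 1 := Subtype.ext (mul_inv_cancel₀ hu0)
  have h2 := congrArg (redE E hq hqM hA hV) h1
  rw [map_mul, map_one, h0, zero_mul] at h2
  exact zero_ne_one h2

theorem charP_kA644 (hq : q.Prime) (hA : A.LiesOverPrime q) : CharP (kA A) q := by
  have h0 : ((q : ℕ) : kA A) = 0 := by
    have h1 : (⟨(q : Kbar), A.nonunits_subset hA⟩ : A) ∈ IsLocalRing.maximalIdeal A := by
      rw [IsLocalRing.mem_maximalIdeal, mem_nonunits_iff]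
      intro hu
      have := (A.mem_nonunits_iff_exists_mem_maximalIdeal).mp hA
      obtain ⟨hm, hmax⟩ := this
      exact (IsLocalRing.mem_maximalIdeal _).mp hmax hu
    have h2 := (IsLocalRing.residue_eq_zero_iff _).mpr h1
    have h3 : (⟨(q : Kbar), A.nonunits_subset hA⟩ : A) = ((q : ℕ) : A) :=
      Subtype.ext (by push_cast; rfl)
    rw [h3, map_natCast] at h2
    exact h2
  haveI : Fact q.Prime := ⟨hq⟩
  exact (CharP.charP_iff_prime_eq_zero hq).mpr h0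

/-- `ρ(j) = j̄`. -/
theorem redE_jE_one (hq : q.Prime) (hqM : ¬ q ∣ M) (hA : A.LiesOverPrime q)
    {V : ValuationSubring ↥(Mod.FE E (M * q))} (hV : Mod.IsVinf A E (M * q) V)
    (hj : Mod.jE E (M * q) 1 (one_dvd _) ∈ V) :
    redE E hq hqM hA hV ⟨Mod.jE E (M * q) 1 (one_dvd _), hj⟩ = jC (kA A) M := by
  apply Subtype.ext
  rw [redE_jE hq hqM hA hV 1 (one_dvd _) hj, jqNModC_one]
  rfl

/-- `ρ(j_q) = j̄ ^ q` (Kronecker). -/
theorem redE_jE_q (hq : q.Prime) (hqM : ¬ q ∣ M) (hA : A.LiesOverPrime q)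
    {V : ValuationSubring ↥(Mod.FE E (M * q))} (hV : Mod.IsVinf A E (M * q) V)
    (hj : Mod.jE E (M * q) q (dvd_mul_left q M) ∈ V) :
    redE E hq hqM hA hV ⟨Mod.jE E (M * q) q (dvd_mul_left q M), hj⟩ = jC (kA A) M ^ q := by
  haveI : Fact q.Prime := ⟨hq⟩
  haveI : CharP (kA A) q := charP_kA644 hq hA
  apply Subtype.ext
  rw [redE_jE hq hqM hA hV q (dvd_mul_left q M) hj]
  have h1 := Fermat.Agent.S28.h88_pow_char_eq_qExpand (kA A) q (jqModC (kA A))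
  rw [coeffMap_jqModC] at h1
  show jqNModC (kA A) q = (jqModC (kA A)) ^ q
  rw [h1, jqNModC]

end Values

/-! ## The chart at infinity -/

section Chart

variable {M q : ℕ} [NeZero M] [NeZero q] {A : ValuationSubring Kbar}
  {E : IntermediateField ℚ Kbar} {w : ↥(Mod.RE A E)}

/-- the chart at infinity of level `M q`, coordinate `x⁻¹`, `x = j j_q`. -/
abbrev chartInf (A : ValuationSubring Kbar) (E : IntermediateField ℚ Kbar) (M q : ℕ)
    [NeZero M] [NeZero q] : Subalgebra ↥(Mod.RE A E) ↥(Mod.FE E (M * q)) :=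
  Mod.chartAlg A E (M * q) (Mod.xE E M q)⁻¹

theorem jE_unit (hS : Mod.Setting A E M q w) {V : ValuationSubring ↥(Mod.FE E (M * q))}
    (hV : Mod.IsVinf A E (M * q) V) (d : ℕ) [NeZero d] (hd : d ∣ M * q) :
    Mod.jE E (M * q) d hd ∈ V ∧ (Mod.jE E (M * q) d hd)⁻¹ ∈ V := by
  have hMq : M * q ≠ 0 := Nat.mul_ne_zero hS.M_ne_zero hS.q_prime.ne_zero
  exact (Mod.H553.vinfBasic A E w (M * q) hMq hS.dvr hS.unif V hV).2.2 d hd

theorem cE_mem644 (hS : Mod.Setting A E M q w) {V : ValuationSubring ↥(Mod.FE E (M * q))}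
    (hV : Mod.IsVinf A E (M * q) V) (r : ↥(Mod.RE A E)) : Mod.cE A E (M * q) r ∈ V := by
  have hMq : M * q ≠ 0 := Nat.mul_ne_zero hS.M_ne_zero hS.q_prime.ne_zero
  exact ((Mod.H553.vinfBasic A E w (M * q) hMq hS.dvr hS.unif V hV).2.1 (r : E)).mpr r.2

theorem xinv_mem (hS : Mod.Setting A E M q w) {V : ValuationSubring ↥(Mod.FE E (M * q))}
    (hV : Mod.IsVinf A E (M * q) V) : (Mod.xE E M q)⁻¹ ∈ V := by
  have h1 := (jE_unit hS hV 1 (one_dvd _)).2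
  have h2 := (jE_unit hS hV q (dvd_mul_left q M)).2
  have : (Mod.xE E M q)⁻¹ = (Mod.jE E (M * q) 1 (one_dvd _))⁻¹ *
      (Mod.jE E (M * q) q (dvd_mul_left q M))⁻¹ := by
    rw [← mul_inv]
    rfl
  rw [this]
  exact V.mul_mem _ _ h1 h2

theorem jE_ne_zero644 (hS : Mod.Setting A E M q w) {V : ValuationSubring ↥(Mod.FE E (M * q))}
    (hV : Mod.IsVinf A E (M * q) V) (d : ℕ) [NeZero d] (hd : d ∣ M * q) :
    Mod.jE E (M * q) d hd ≠ 0 :=
  Mod.H873.jE_ne_zero (E := E) (M * q) d hd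

/-- `ρ(x⁻¹) = (j̄ ^ (q + 1))⁻¹`. -/
theorem redE_xinv (hS : Mod.Setting A E M q w) {V : ValuationSubring ↥(Mod.FE E (M * q))}
    (hV : Mod.IsVinf A E (M * q) V) :
    redE E hS.q_prime hS.q_not_dvd hS.lies_over hV ⟨(Mod.xE E M q)⁻¹, xinv_mem hS hV⟩ =
      (jC (kA A) M ^ (q + 1))⁻¹ := by
  have h1 := jE_unit hS hV 1 (one_dvd _)
  have h2 := jE_unit hS hV q (dvd_mul_left q M)
  have hx : Mod.xE E M q ∈ V := V.mul_mem _ _ h1.1 h2.1
  have hx0 : Mod.xE E M q ≠ 0 :=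
    mul_ne_zero (jE_ne_zero644 hS hV 1 (one_dvd _)) (jE_ne_zero644 hS hV q (dvd_mul_left q M))
  rw [redE_inv hS.q_prime hS.q_not_dvd hS.lies_over hV _ hx (xinv_mem hS hV) hx0]
  congr 1
  have : (⟨Mod.xE E M q, hx⟩ : ↥V) = ⟨Mod.jE E (M * q) 1 (one_dvd _), h1.1⟩ *
      ⟨Mod.jE E (M * q) q (dvd_mul_left q M), h2.1⟩ := rfl
  rw [this, map_mul, redE_jE_one, redE_jE_q, pow_succ, mul_comm]

variable (Q : Place (kA A) ↥(modularFunctionFieldFullC (kA A) M))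

theorem jC_ne_zero (hQ : Q.ord (jC (kA A) M) < 0) : jC (kA A) M ≠ 0 := by
  intro h0
  rw [h0, Place.ord_zero] at hQ
  exact lt_irrefl _ hQ

/-- `ord_Q ρ(x⁻¹) > 0` at a cusp. -/
theorem ord_redE_xinv (hS : Mod.Setting A E M q w) {V : ValuationSubring ↥(Mod.FE E (M * q))}
    (hV : Mod.IsVinf A E (M * q) V) (hQ : Q.ord (jC (kA A) M) < 0) :
    0 < Q.ord (redE E hS.q_prime hS.q_not_dvd hS.lies_over hV
      ⟨(Mod.xE E M q)⁻¹, xinv_mem hS hV⟩ : ↥(modularFunctionFieldFullC (kA A) M)) := by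
  rw [redE_xinv hS hV, Place.ord_inv, Fermat.Agent.A2.H129.ord_pow]
  have h1 : (0 : ℤ) < ((q + 1 : ℕ) : ℤ) := by positivity
  have h2 : ((q + 1 : ℕ) : ℤ) * Q.ord (jC (kA A) M) < 0 := mul_neg_of_pos_of_neg h1 hQ
  linarith

/-- The elements of `V∞` whose reduction is regular at `Q`. -/
def regSub (hS : Mod.Setting A E M q w) {V : ValuationSubring ↥(Mod.FE E (M * q))}
    (hV : Mod.IsVinf A E (M * q) V) :
    Subalgebra ↥(Mod.RE A E) ↥(Mod.FE E (M * q)) where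
  carrier := {f | ∃ hf : f ∈ V,
    (redE E hS.q_prime hS.q_not_dvd hS.lies_over hV ⟨f, hf⟩ :
      ↥(modularFunctionFieldFullC (kA A) M)) ∈ Q.toValuationSubring}
  mul_mem' := by
    rintro a b ⟨ha, ha'⟩ ⟨hb, hb'⟩
    refine ⟨V.mul_mem _ _ ha hb, ?_⟩
    have : (⟨a * b, V.mul_mem _ _ ha hb⟩ : ↥V) = ⟨a, ha⟩ * ⟨b, hb⟩ := rfl
    rw [this, map_mul]
    exact Q.toValuationSubring.mul_mem _ _ ha' hb'
  add_mem' := by
    rintro a b ⟨ha, ha'⟩ ⟨hb, hb'⟩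
    refine ⟨V.add_mem _ _ ha hb, ?_⟩
    have : (⟨a + b, V.add_mem _ _ ha hb⟩ : ↥V) = ⟨a, ha⟩ + ⟨b, hb⟩ := rfl
    rw [this, map_add]
    exact Q.toValuationSubring.add_mem _ _ ha' hb'
  algebraMap_mem' := by
    intro r
    refine ⟨cE_mem644 hS hV r, ?_⟩
    have := redE_cE hS.q_prime hS.q_not_dvd hS.lies_over hV r (cE_mem644 hS hV r)
    show (redE E hS.q_prime hS.q_not_dvd hS.lies_over hV ⟨Mod.cE A E (M * q) r, _⟩ :
      ↥(modularFunctionFieldFullC (kA A) M)) ∈ Q.toValuationSubring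
    rw [this]
    exact Q.algebraMap_mem' _

theorem adjoin_le_regSub (hS : Mod.Setting A E M q w)
    {V : ValuationSubring ↥(Mod.FE E (M * q))} (hV : Mod.IsVinf A E (M * q) V)
    (hQ : Q.ord (jC (kA A) M) < 0) :
    Algebra.adjoin ↥(Mod.RE A E) ({(Mod.xE E M q)⁻¹} : Set ↥(Mod.FE E (M * q))) ≤
      regSub Q hS hV := by
  refine Algebra.adjoin_le ?_
  rw [Set.singleton_subset_iff]
  exact ⟨xinv_mem hS hV, Fermat.Agent.S24.FF.mem_of_ord_nonneg Q (ord_redE_xinv Q hS hV hQ).le⟩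

/-- **`ρ(B) ⊆ O_Q`** at a cusp `Q`. -/
theorem redE_mem_of_mem_chart (hS : Mod.Setting A E M q w)
    {V : ValuationSubring ↥(Mod.FE E (M * q))} (hV : Mod.IsVinf A E (M * q) V)
    (hQ : Q.ord (jC (kA A) M) < 0) (b : ↥(Mod.FE E (M * q))) (hb : b ∈ chartInf A E M q)
    (hbV : b ∈ V) :
    (redE E hS.q_prime hS.q_not_dvd hS.lies_over hV ⟨b, hbV⟩ :
      ↥(modularFunctionFieldFullC (kA A) M)) ∈ Q.toValuationSubring := by
  have hint : IsIntegral
      ↥(Algebra.adjoin ↥(Mod.RE A E) ({(Mod.xE E M q)⁻¹} : Set ↥(Mod.FE E (M * q)))) b := hb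
  obtain ⟨p, hp, hpb⟩ := hint
  have hA₀ := adjoin_le_regSub Q hS hV hQ
  let i₀ : ↥(Algebra.adjoin ↥(Mod.RE A E) ({(Mod.xE E M q)⁻¹} : Set ↥(Mod.FE E (M * q)))) →+*
      ↥V :=
    ((Algebra.adjoin ↥(Mod.RE A E)
      ({(Mod.xE E M q)⁻¹} : Set ↥(Mod.FE E (M * q)))).val.toRingHom).codRestrict V
      (fun a => (hA₀ a.2).1)
  let φ : ↥(Algebra.adjoin ↥(Mod.RE A E) ({(Mod.xE E M q)⁻¹} : Set ↥(Mod.FE E (M * q)))) →+*
      ↥Q.toValuationSubring :=
    ((redE E hS.q_prime hS.q_not_dvd hS.lies_over hV).comp i₀).codRestrict Q.toValuationSubring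
      (fun a => (hA₀ a.2).2)
  have hint' : IsIntegral ↥Q.toValuationSubring
      (redE E hS.q_prime hS.q_not_dvd hS.lies_over hV ⟨b, hbV⟩) := by
    refine ⟨p.map φ, hp.map _, ?_⟩
    rw [Polynomial.eval₂_map]
    have hcomp : (algebraMap ↥Q.toValuationSubring ↥(modularFunctionFieldFullC (kA A) M)).comp φ =
        (redE E hS.q_prime hS.q_not_dvd hS.lies_over hV).comp i₀ := RingHom.ext fun _ => rfl
    rw [hcomp, ← Polynomial.hom_eval₂]
    have h0 : Polynomial.eval₂ i₀ ⟨b, hbV⟩ p = 0 := by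
      apply Subtype.ext
      have h1 := Polynomial.hom_eval₂ p i₀ V.subtype ⟨b, hbV⟩
      have h2 : ((Polynomial.eval₂ i₀ ⟨b, hbV⟩ p : ↥V) : ↥(Mod.FE E (M * q))) =
          V.subtype (Polynomial.eval₂ i₀ ⟨b, hbV⟩ p) := rfl
      rw [h2, h1]
      exact hpb
    rw [h0, map_zero]
  obtain ⟨y, hy⟩ := IsIntegrallyClosed.isIntegral_iff (R := ↥Q.toValuationSubring)
    (K := ↥(modularFunctionFieldFullC (kA A) M)) |>.mp hint'
  rw [← hy]
  exact y.2

end Chart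

end Fermat.Agent.Ribet.H644

end
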