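import Fermat.Agent.Ribet.H644.CuspPoint
import Fermat.Agent.A2.T1.H669.T2
import Fermat.Agent.A2.IF.H429.IF

/-!
# RIBET, leaf CUSP (purity at the cusps) — the core theorem CUSP-GEN  (helper644)

Level `M q`, `q ∤ M` (`HasAux M q`), `A ⊆ ℚ̄` a valuation ring over `q`, `k = kA A`.

**`cuspGen`**: let `g ∈ ℚ̄(X₀(M q))ˣ` with `m ∣ div g` (ANY `m > 0`, also `q ∣ m`), `r` a reduction
of `g` on the component `C∞` (`IsRedSer A g r`, i.e. `H884.IsRedInf`), `h ∈ k(X₀(M))` with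
`t`-expansion `r`.  Then `m ∣ ord_Q h` at every CUSP `Q` of `X₀(M)_k` (`ord_Q j < 0`).

Proof: the cusps of `C∞` are smooth points of the semistable model (no node at infinity,
`not_p₂_le_cuspIdeal`), purity at smooth points holds without any hypothesis on the residue
(`pureAt_smooth_of_locUnit`), and `ord_Q ρ(u)` is read off a purity datum (`dvd_ord_of_pureAt`).

* `exists_vinf_dvd_ord` : the statement at a good level `E`;
* `cuspGen`             : the statement over `ℚ̄`;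
* `cuspGen_all`         : with the non-cuspidal places as a hypothesis, `m ∣ ord_Q h` everywhere.
-/

set_option autoImplicit false
set_option linter.unusedSectionVars false
set_option linter.unusedVariables false
set_option linter.style.haveILetI false
set_option synthInstance.maxHeartbeats 400000
set_option maxHeartbeats 1600000

noncomputable section

namespace Fermat.Agent.Ribet.H644

open AlgebraicCurve ModularCurve HahnSeries
open Fermat.Agent.S24 Fermat.Agent.A2.H708 Fermat.Agent.Ribet.H884 Fermat.Agent.Ribet.H997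
open Fermat.Agent.A2 Fermat.Agent.A2.Alg Fermat.Agent.A2.T1.H669
open Fermat.Agent.S35.G (CutBy)

section Core

variable {M q : ℕ} [NeZero M] [NeZero q] {A : ValuationSubring Kbar}
  {E : IntermediateField ℚ Kbar} {w : ↥(Mod.RE A E)}

/-- **CUSP-GEN at a good level.** -/
theorem exists_vinf_dvd_ord (hS : Mod.Setting A E M q w) (hgood : GoodField A E)
    (hAux : Fermat.Agent.S35.G.HasAux M q) (m : ℕ) (hm : 0 < m) :
    ∃ (V : ValuationSubring ↥(Mod.FE E (M * q))) (hV : Mod.IsVinf A E (M * q) V),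
      ∀ (u : ↥(Mod.FE E (M * q))) (hu : u ∈ V), u⁻¹ ∈ V → u ≠ 0 → DivisibleDiv ↥E m u →
        ∀ Q : Place (kA A) ↥(modularFunctionFieldFullC (kA A) M), Q.ord (jC (kA A) M) < 0 →
          (m : ℤ) ∣ Q.ord (redE E hS.q_prime hS.q_not_dvd hS.lies_over hV ⟨u, hu⟩ :
            ↥(modularFunctionFieldFullC (kA A) M)) := by
  obtain ⟨V, W, VM, hV, hW, hVM, -, -, hdeg, cf, ci, hcf, hci⟩ :=
    Fermat.Agent.S35.G.H862.modelNoSep A E M q w hS hgood hAux
  refine ⟨V, hV, ?_⟩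
  intro u hu hu' hu0 hdiv Q hQ
  haveI := hS.dvr
  obtain ⟨hx, hfr, hconst⟩ := hdeg hS.q_prime hS.q_not_dvd
  have hpos : 0 < Module.finrank
      ↥(IntermediateField.adjoin ↥E ({Mod.xE E M q} : Set ↥(Mod.FE E (M * q))))
      ↥(Mod.FE E (M * q)) := by
    rw [hfr]
    have h1 := Mod.dedekindPsi_pos_of_ne_zero M (NeZero.ne M)
    positivity
  have hfin : FiniteDimensional
      ↥(IntermediateField.adjoin ↥E ({Mod.xE E M q} : Set ↥(Mod.FE E (M * q))))
      ↥(Mod.FE E (M * q)) := Module.finite_of_finrank_pos hpos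
  have hCi : ChartCtx ↥E w (Mod.xE E M q)⁻¹ (chartInf A E M q) :=
    H34.chartCtx_inv w hS.unif (Mod.xE E M q) hx hfin hconst _ (fun _ => Iff.rfl)
  haveI := ci.prime₁
  have hloc : ∀ z : ↥(Mod.FE E (M * q)), z ∈ V →
      z ∈ Fermat.Agent.A2.H348.locAt (chartInf A E M q) ci.p₁ :=
    Fermat.Agent.S35.H433.le_locAt_of_cut (Fermat.Agent.A2.Alg.H348.compData₁ hCi ci)
      (Fermat.Agent.A2.Alg.H348.adjoin_le_of_ctx hCi) V hci.le₁ hci.cut₁
  have hLU : LocUnit (chartInf A E M q) ci.p₁ u := by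
    rw [Fermat.Agent.S35.H433.locUnit_iff]
    obtain ⟨s, hs, hsu⟩ := hloc u hu
    obtain ⟨s', hs', hsu'⟩ := hloc u⁻¹ hu'
    exact ⟨hu0, ⟨⟨_, hsu⟩, s, trivial, hs, mul_comm _ _⟩,
      ⟨⟨_, hsu'⟩, s', trivial, hs', mul_comm _ _⟩⟩
  have hnp₂ := not_p₂_le_cuspIdeal Q hS hV hQ ci hW hci
  have hpure : PureAt (chartInf A E M q) ci m u (cuspIdeal Q hS hV hQ hci.le₁) :=
    pureAt_smooth_of_locUnit m hm w (Mod.xE E M q)⁻¹ (chartInf A E M q) hCi ci u hdiv
      (cuspIdeal Q hS hV hQ hci.le₁) (cuspIdeal_isPrime Q hS hV hQ hci.le₁)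
      (w_mem_cuspIdeal Q hS hV hQ hci.le₁ ci hci.cut₁)
      (fun h => hnp₂ h.2) (fun _ => hLU) (fun h => absurd h hnp₂)
  exact dvd_ord_of_pureAt Q hS hV hQ hci.le₁ ci hci.cut₁ m u hu hu' hu0 hpure

end Core

section Qbar

variable (M q m : ℕ) [NeZero M] [NeZero q]

/-- **CUSP-GEN.**  `m ∣ div g` on `X₀(M q)_{ℚ̄}` ⟹ the reduction of `g` on `C∞` has order
divisible by `m` at every cusp of `X₀(M)_k`. -/
theorem cuspGen (hq : q.Prime) (hqM : ¬ q ∣ M) (hAux : Fermat.Agent.S35.G.HasAux M q)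
    (hm : 0 < m) (A : ValuationSubring Kbar) (hA : A.LiesOverPrime q)
    (g : ↥(modularFunctionFieldBar (M * q))) (hg : g ≠ 0)
    (hdiv : ∀ v : Place Kbar ↥(modularFunctionFieldBar (M * q)), (m : ℤ) ∣ v.ord g)
    (r : LaurentSeries (kA A)) (hr : IsRedSer A (g : LaurentSeries Kbar) r)
    (h : ↥(modularFunctionFieldFullC (kA A) M)) (hh : (h : LaurentSeries (kA A)) = r)
    (Q : Place (kA A) ↥(modularFunctionFieldFullC (kA A) M))
    (hQ : Q.ord (jC (kA A) M) < 0) : (m : ℤ) ∣ Q.ord h := by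
  obtain ⟨S, hS⟩ := exists_finset_descent (modularFunctionFieldFull (M * q)) g
  obtain ⟨E, hSE, hgood⟩ := Fermat.Agent.A2.IF.H429.exists_goodField q hq A hA S
  obtain ⟨y, hy⟩ := hS E hSE
  haveI := hgood.dvr
  obtain ⟨w, hw⟩ := IsDiscreteValuationRing.exists_irreducible ↥(Mod.RE A E)
  have hSet : Mod.Setting A E M q w := ⟨hq, hqM, NeZero.ne M, hA, hgood.dvr, hw⟩
  obtain ⟨V, hV, hcore⟩ := exists_vinf_dvd_ord hSet hgood hAux m hm
  have hy0 : y ≠ 0 := by
    rintro rfl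
    exact hg (by rw [← hy, map_zero])
  obtain ⟨c, hc0, hval⟩ := Mod.H553.exists_const_mul_unit A E hV hy0
  have hcF0 : algebraMap ↥E ↥(Mod.FE E (M * q)) c ≠ 0 :=
    (map_ne_zero (algebraMap ↥E ↥(Mod.FE E (M * q)))).mpr hc0
  have hcK0 : algebraMap ↥E Kbar c ≠ 0 := (map_ne_zero (algebraMap ↥E Kbar)).mpr hc0
  obtain ⟨u, hu_def⟩ : ∃ u : ↥(Mod.FE E (M * q)),
      u = y * (algebraMap ↥E ↥(Mod.FE E (M * q)) c)⁻¹ := ⟨_, rfl⟩
  rw [← hu_def] at hval
  have hu : u ∈ V := (V.valuation_le_one_iff u).mp (le_of_eq hval)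
  have hu' : u⁻¹ ∈ V := by
    rw [← V.valuation_le_one_iff, map_inv₀, hval, inv_one]
  have hu0 : u ≠ 0 := by
    rw [hu_def]
    exact mul_ne_zero hy0 (inv_ne_zero hcF0)
  have hyu : y = algebraMap ↥E ↥(Mod.FE E (M * q)) c * u := by
    rw [hu_def, mul_comm y, ← mul_assoc, mul_inv_cancel₀ hcF0, one_mul]
  -- `m ∣ div u`
  have hdivu : DivisibleDiv ↥E m u := by
    apply divisibleDiv_of_ord E (modularFunctionFieldFull (M * q)) m u hu0
    intro v
    have hcb0 : algebraMap Kbar ↥(modularFunctionFieldBar (M * q)) (algebraMap ↥E Kbar c) ≠ 0 :=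
      (map_ne_zero (algebraMap Kbar ↥(modularFunctionFieldBar (M * q)))).mpr hcK0
    have e : iota E (modularFunctionFieldFull (M * q)) u =
        g * (algebraMap Kbar ↥(modularFunctionFieldBar (M * q)) (algebraMap ↥E Kbar c))⁻¹ := by
      rw [hu_def, map_mul, map_inv₀, hy, iota_algebraMap]
    rw [e, Place.ord_mul v hg (inv_ne_zero hcb0), Place.ord_inv,
      Fermat.Agent.A2.H129.ord_algebraMap_eq_zero, neg_zero, add_zero]
    exact hdiv v
  have hres := hcore u hu hu' hu0 hdivu Q hQ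
  -- the reduction of `g` is `ρ(u)` up to a constant
  obtain ⟨U₁, U₂, h₂, hm₂, he⟩ := (hV u).mp hu
  have hspec := redE_spec hq hqM hA hV ⟨u, hu⟩ U₁ U₂ h₂ hm₂ he
  have hρ0 := redE_ne_zero_of_unit hq hqM hA hV u hu hu' hu0
  have hρ0' : ((redE E hq hqM hA hV ⟨u, hu⟩ : ↥(modularFunctionFieldFullC (kA A) M)) :
      LaurentSeries (kA A)) ≠ 0 := fun h0 => hρ0 (Subtype.ext h0)
  have h₂' : red A (upA A E U₂) ≠ 0 := red_upA_ne_zero E h₂
  have h₁' : red A (upA A E U₁) ≠ 0 := by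
    rw [← hspec]
    exact mul_ne_zero hρ0' h₂'
  have hred : IsRedSer A (g : LaurentSeries Kbar)
      ((redE E hq hqM hA hV ⟨u, hu⟩ : ↥(modularFunctionFieldFullC (kA A) M)) :
        LaurentSeries (kA A)) := by
    refine ⟨algebraMap ↥E Kbar c, upA A E U₁, upA A E U₂, hcK0, h₁', h₂', ?_, hspec⟩
    rw [incl_upA, incl_upA, ← hy, coe_iota]
    have hyu' : (y : LaurentSeries ↥E) = cst (c : ↥E) * (u : LaurentSeries ↥E) := by
      rw [hyu]
      rfl
    rw [hyu', ← map_mul, mul_assoc, he, map_mul]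
    congr 1
    exact Fermat.Agent.S18.H602.coeffMap_algebraMap' (algebraMap ↥E Kbar) c
  obtain ⟨a, ha0, hra⟩ := hred.unique hr
  have hheq : h = algebraMap (kA A) ↥(modularFunctionFieldFullC (kA A) M) a *
      redE E hq hqM hA hV ⟨u, hu⟩ := by
    apply Subtype.ext
    rw [hh, hra]
    show _ = algebraMap (kA A) (LaurentSeries (kA A)) a * _
    rw [algebraMap_laurentSeries_eq_single]
    rfl
  rw [hheq, Place.ord_mul Q
    ((map_ne_zero (algebraMap (kA A) ↥(modularFunctionFieldFullC (kA A) M))).mpr ha0) hρ0,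
    Fermat.Agent.A2.H129.ord_algebraMap_eq_zero, zero_add]
  exact hres

end Qbar

end Fermat.Agent.Ribet.H644

end
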