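import Fermat.Agent.Ribet.H644.CuspChart

/-!
# RIBET, leaf CUSP (purity at the cusps) — the cusps on the chart at infinity  (helper644)

Level `M q`, good level `E`, `B = chartAlg (x⁻¹)`, `x = j j_q`, `V = V∞`, `Q` a place of
`F_k = k(X₀(M))` with `ord_Q j < 0` (a cusp of the component `C∞`).

* `redE_inv`, `redE_jE_one`, `redE_jE_q`, `redE_xinv`     : values of the reduction;
* `redE_mem_of_mem_chart`  : `ρ(B) ⊆ O_Q`   (integrality);
* `cuspIdeal`              : `n = {b ∈ B | ρ b ∈ m_Q}`, prime, `p₁ ≤ n`, `w ∈ n`;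
* `eprime_mem_chart`       : `e' = j / j_q ^ q ∈ B`   (Newton polygon of `Φ_q`);
* `not_le_cuspIdeal`       : **no node at infinity**, `¬ p₂ ≤ n`;
* `dvd_ord_of_pureAt`      : `PureAt B c m u n`, `u` a unit of `V∞`  ⟹  `m ∣ ord_Q (ρ u)`.
-/

set_option autoImplicit false
set_option linter.unusedSectionVars false
set_option linter.unusedVariables false
set_option linter.style.haveILetI false
set_option synthInstance.maxHeartbeats 400000
set_option maxHeartbeats 1600000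

noncomputable section

namespace Fermat.Agent.Ribet.H644

open AlgebraicCurve ModularCurve HahnSeries
open Fermat.Agent.S24 Fermat.Agent.A2.H708 Fermat.Agent.Ribet.H884 Fermat.Agent.Ribet.H997
open Fermat.Agent.A2 Fermat.Agent.A2.Alg
open Fermat.Agent.S35.G (CutBy)

/-! ## The closed point of the chart attached to a cusp -/

section CuspPoint

variable {M q : ℕ} [NeZero M] [NeZero q] {A : ValuationSubring Kbar}
  {E : IntermediateField ℚ Kbar} {w : ↥(Mod.RE A E)}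
  (Q : Place (kA A) ↥(modularFunctionFieldFullC (kA A) M))
  (hS : Mod.Setting A E M q w)
  {V : ValuationSubring ↥(Mod.FE E (M * q))} (hV : Mod.IsVinf A E (M * q) V)
  (hQ : Q.ord (jC (kA A) M) < 0)
  (hle : ∀ b ∈ chartInf A E M q, b ∈ V)

/-- the inclusion of the chart at infinity into `V∞`. -/
def chartToV : ↥(chartInf A E M q) →+* ↥V :=
  ((chartInf A E M q).val.toRingHom).codRestrict V (fun b => hle b b.2)

/-- the reduction of the chart at infinity at the cusp `Q`. -/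
def chartRedQ : ↥(chartInf A E M q) →+* ↥Q.toValuationSubring :=
  ((redE E hS.q_prime hS.q_not_dvd hS.lies_over hV).comp (chartToV hle)).codRestrict
    Q.toValuationSubring (fun b => redE_mem_of_mem_chart Q hS hV hQ b b.2 (hle b b.2))

/-- **The closed point of the chart at infinity attached to the cusp `Q`.** -/
def cuspIdeal : Ideal ↥(chartInf A E M q) :=
  Ideal.comap (chartRedQ Q hS hV hQ hle) (IsLocalRing.maximalIdeal ↥Q.toValuationSubring)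

theorem cuspIdeal_isPrime : (cuspIdeal Q hS hV hQ hle).IsPrime :=
  Ideal.comap_isPrime _ _

theorem mem_cuspIdeal_iff (b : ↥(chartInf A E M q)) :
    b ∈ cuspIdeal Q hS hV hQ hle ↔
      Fermat.Agent.S37.H940.InMax Q
        (redE E hS.q_prime hS.q_not_dvd hS.lies_over hV
          ⟨(b : ↥(Mod.FE E (M * q))), hle b b.2⟩ : ↥(modularFunctionFieldFullC (kA A) M)) := by
  rw [Fermat.Agent.S37.H940.inMax_iff_exists_mem_maximalIdeal]
  constructor
  · intro h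
    exact ⟨redE_mem_of_mem_chart Q hS hV hQ b b.2 _, h⟩
  · rintro ⟨h1, h2⟩
    exact h2

/-- off the closed point, the reduction has order `0`. -/
theorem ord_eq_zero_of_not_mem (b : ↥(chartInf A E M q)) (hb : b ∉ cuspIdeal Q hS hV hQ hle) :
    redE E hS.q_prime hS.q_not_dvd hS.lies_over hV ⟨(b : ↥(Mod.FE E (M * q))), hle b b.2⟩ ≠ 0 ∧
    Q.ord (redE E hS.q_prime hS.q_not_dvd hS.lies_over hV
      ⟨(b : ↥(Mod.FE E (M * q))), hle b b.2⟩ : ↥(modularFunctionFieldFullC (kA A) M)) = 0 := by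
  rw [mem_cuspIdeal_iff] at hb
  have hne : redE E hS.q_prime hS.q_not_dvd hS.lies_over hV
      ⟨(b : ↥(Mod.FE E (M * q))), hle b b.2⟩ ≠ 0 := fun h0 => hb (Or.inl h0)
  refine ⟨hne, ?_⟩
  have h1 : ¬ 0 < Q.ord (redE E hS.q_prime hS.q_not_dvd hS.lies_over hV
      ⟨(b : ↥(Mod.FE E (M * q))), hle b b.2⟩ : ↥(modularFunctionFieldFullC (kA A) M)) :=
    fun h => hb (Or.inr h)
  have h2 := Fermat.Agent.S24.FF.ord_nonneg_of_mem Q
    (redE_mem_of_mem_chart Q hS hV hQ b b.2 (hle b b.2))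
  omega

variable {W : ↥(Mod.FE E (M * q)) ≃ₐ[↥E] ↥(Mod.FE E (M * q))}
  (ci : SSChart w (chartInf A E M q))

/-- `p₁ = ker ρ`. -/
theorem mem_p₁_iff (hcut₁ : ∀ b : ↥(chartInf A E M q),
      b ∈ ci.p₁ ↔ (b : ↥(Mod.FE E (M * q))) *
        (algebraMap ↥(Mod.RE A E) ↥(Mod.FE E (M * q)) w)⁻¹ ∈ V)
    (b : ↥(chartInf A E M q)) :
    b ∈ ci.p₁ ↔ redE E hS.q_prime hS.q_not_dvd hS.lies_over hV
      ⟨(b : ↥(Mod.FE E (M * q))), hle b b.2⟩ = 0 := by
  haveI := hS.dvr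
  rw [hcut₁ b, redE_eq_zero_iff hS.q_prime hS.q_not_dvd hS.lies_over hV hS.unif]
  rfl

theorem p₁_le_cuspIdeal (hcut₁ : ∀ b : ↥(chartInf A E M q),
      b ∈ ci.p₁ ↔ (b : ↥(Mod.FE E (M * q))) *
        (algebraMap ↥(Mod.RE A E) ↥(Mod.FE E (M * q)) w)⁻¹ ∈ V) :
    ci.p₁ ≤ cuspIdeal Q hS hV hQ hle := by
  intro b hb
  rw [mem_cuspIdeal_iff]
  exact Or.inl ((mem_p₁_iff hS hV hle ci hcut₁ b).mp hb)

theorem w_mem_cuspIdeal (hcut₁ : ∀ b : ↥(chartInf A E M q),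
      b ∈ ci.p₁ ↔ (b : ↥(Mod.FE E (M * q))) *
        (algebraMap ↥(Mod.RE A E) ↥(Mod.FE E (M * q)) w)⁻¹ ∈ V) :
    algebraMap ↥(Mod.RE A E) ↥(chartInf A E M q) w ∈ cuspIdeal Q hS hV hQ hle := by
  apply p₁_le_cuspIdeal Q hS hV hQ hle ci hcut₁
  have h : algebraMap ↥(Mod.RE A E) ↥(chartInf A E M q) w ∈ ci.p₁ ⊓ ci.p₂ := by
    rw [ci.inf_eq]
    exact Ideal.mem_span_singleton_self _
  exact h.1

/-! ### No node at infinity -/

/-- `e' = j / j_q ^ q`: `e' ≡ 1` on `C₀`, `e'` vanishes at the cusps of `C∞`. -/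
def ePrime (E : IntermediateField ℚ Kbar) (M q : ℕ) [NeZero M] [NeZero q] :
    ↥(Mod.FE E (M * q)) :=
  Mod.jE E (M * q) 1 (one_dvd _) * ((Mod.jE E (M * q) q (dvd_mul_left q M)) ^ q)⁻¹

theorem exists_shape_jE (E : IntermediateField ℚ Kbar) (M : ℕ) [NeZero M] (hq : q.Prime) :
    ∃ Φ : Polynomial (Polynomial ℤ), Fermat.Agent.S15.H962.IsModularShape q Φ ∧
      Fermat.Agent.S15.H962.eval2 Φ (Mod.jE E (M * q) 1 (one_dvd _))
        (Mod.jE E (M * q) q (dvd_mul_left q M)) = 0 := by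
  obtain ⟨Φ, hΦ, hev⟩ := Fermat.Agent.S15.H386.exists_isModularShape q hq
  refine ⟨Φ, hΦ, ?_⟩
  have h := (hev ↥E 1).1
  rw [← Fermat.Agent.S15.H386.eval2_eq_zero_iff_map
    (algebraMap ↥(Mod.FE E (M * q)) (LaurentSeries ↥E)) Φ]
  have e1 : algebraMap ↥(Mod.FE E (M * q)) (LaurentSeries ↥E)
      (Mod.jE E (M * q) 1 (one_dvd _)) = qExpand ↥E 1 (jqModC ↥E) :=
    Mod.H873.coe_jE (E := E) (M * q) 1 (one_dvd _)
  have e2 : algebraMap ↥(Mod.FE E (M * q)) (LaurentSeries ↥E)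
      (Mod.jE E (M * q) q (dvd_mul_left q M)) = qExpand ↥E (1 * q) (jqModC ↥E) := by
    rw [qExpand_congr (one_mul q)]
    exact Mod.H873.coe_jE (E := E) (M * q) q (dvd_mul_left q M)
  rw [e1, e2]
  exact h

/-- **`e' ∈ B`** (Newton polygon of the modular equation). -/
theorem ePrime_mem_chart (A : ValuationSubring Kbar) (E : IntermediateField ℚ Kbar) (M : ℕ)
    [NeZero M] (hq : q.Prime) : ePrime E M q ∈ chartInf A E M q := by
  obtain ⟨Φ, hΦ, h⟩ := exists_shape_jE E M hq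
  show IsIntegral
    ↥(Algebra.adjoin ↥(Mod.RE A E) ({(Mod.xE E M q)⁻¹} : Set ↥(Mod.FE E (M * q))))
    (ePrime E M q)
  refine isIntegral_of_forall_valuationSubring _ fun V' hV' => ?_
  have hx : (Mod.xE E M q)⁻¹ ∈ V' :=
    hV' ⟨(Mod.xE E M q)⁻¹, Algebra.subset_adjoin (Set.mem_singleton _)⟩
  exact div_pow_mem_of_isModularShape hq.pos hΦ
    (Mod.H873.jE_ne_zero (E := E) (M * q) 1 (one_dvd _))
    (Mod.H873.jE_ne_zero (E := E) (M * q) q (dvd_mul_left q M)) h V' hx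

/-- `ρ(e') = j̄ / j̄ ^ (q²)` -/
theorem redE_ePrime (he : ePrime E M q ∈ V) :
    redE E hS.q_prime hS.q_not_dvd hS.lies_over hV ⟨ePrime E M q, he⟩ =
      jC (kA A) M * ((jC (kA A) M ^ q) ^ q)⁻¹ := by
  have h1 := jE_unit hS hV 1 (one_dvd _)
  have h2 := jE_unit hS hV q (dvd_mul_left q M)
  have hpow : (Mod.jE E (M * q) q (dvd_mul_left q M)) ^ q ∈ V := pow_mem h2.1 q
  have hpowinv : ((Mod.jE E (M * q) q (dvd_mul_left q M)) ^ q)⁻¹ ∈ V := by
    rw [← inv_pow]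
    exact pow_mem h2.2 q
  have hne : (Mod.jE E (M * q) q (dvd_mul_left q M)) ^ q ≠ 0 :=
    pow_ne_zero _ (Mod.H873.jE_ne_zero (E := E) (M * q) q (dvd_mul_left q M))
  have heq : (⟨ePrime E M q, he⟩ : ↥V) = ⟨Mod.jE E (M * q) 1 (one_dvd _), h1.1⟩ *
      ⟨((Mod.jE E (M * q) q (dvd_mul_left q M)) ^ q)⁻¹, hpowinv⟩ := rfl
  have hpw : (⟨(Mod.jE E (M * q) q (dvd_mul_left q M)) ^ q, hpow⟩ : ↥V) =
      ⟨Mod.jE E (M * q) q (dvd_mul_left q M), h2.1⟩ ^ q := rfl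
  rw [heq, map_mul, redE_jE_one,
    redE_inv hS.q_prime hS.q_not_dvd hS.lies_over hV _ hpow hpowinv hne, hpw, map_pow,
    redE_jE_q]

/-- **No node at infinity**: the closed point of a cusp of `C∞` does not lie on `C₀`. -/
theorem not_p₂_le_cuspIdeal (hW : Mod.IsFricke E (M * q) W)
    (hcut : CutBy w (chartInf A E M q) ci V
      (V.comap (W : ↥(Mod.FE E (M * q)) →+* ↥(Mod.FE E (M * q))))) :
    ¬ ci.p₂ ≤ cuspIdeal Q hS hV hQ hcut.le₁ := by
  intro hle₂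
  have hq := hS.q_prime
  have he : ePrime E M q ∈ chartInf A E M q := ePrime_mem_chart A E M hq
  have h1 := jE_unit hS hV 1 (one_dvd _)
  have h2 := jE_unit hS hV q (dvd_mul_left q M)
  have hj0 := jC_ne_zero Q hQ
  -- `e' ∈ n`
  have hen : (⟨ePrime E M q, he⟩ : ↥(chartInf A E M q)) ∈ cuspIdeal Q hS hV hQ hcut.le₁ := by
    rw [mem_cuspIdeal_iff]
    refine Or.inr ?_
    show 0 < Q.ord (redE E hS.q_prime hS.q_not_dvd hS.lies_over hV
      ⟨ePrime E M q, hcut.le₁ _ he⟩ : ↥(modularFunctionFieldFullC (kA A) M))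
    rw [redE_ePrime hS hV, Place.ord_mul Q hj0
      (inv_ne_zero (pow_ne_zero _ (pow_ne_zero _ hj0))), Place.ord_inv,
      Fermat.Agent.A2.H129.ord_pow, Fermat.Agent.A2.H129.ord_pow]
    have hq2 : (2 : ℤ) ≤ (q : ℤ) := by exact_mod_cast hq.two_le
    nlinarith [mul_nonneg (by linarith : (0 : ℤ) ≤ (q : ℤ) - 2) (by linarith : (0 : ℤ) ≤ (q : ℤ))]
  -- `1 - e' ∈ p₂`
  have h1e : (1 - ⟨ePrime E M q, he⟩ : ↥(chartInf A E M q)) ∈ ci.p₂ := by
    rw [hcut.cut₂, ValuationSubring.mem_comap]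
    show W ((1 - ePrime E M q) * (Mod.cE A E (M * q) w)⁻¹) ∈ V
    have hWc : W (Mod.cE A E (M * q) w) = Mod.cE A E (M * q) w := W.commutes _
    have hW1 : W (Mod.jE E (M * q) 1 (one_dvd _)) = Mod.jE E (M * q) (M * q) (dvd_refl _) :=
      hW.1 1 (M * q) (one_dvd _) (dvd_refl _) (one_mul _)
    have hWq : W (Mod.jE E (M * q) q (dvd_mul_left q M)) =
        Mod.jE E (M * q) M (dvd_mul_right M q) :=
      hW.1 q M (dvd_mul_left q M) (dvd_mul_right M q) (mul_comm q M)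
    have hK : Mod.InW A E (M * q) V w
        (Mod.jE E (M * q) (M * q) (dvd_refl _) - (Mod.jE E (M * q) M (dvd_mul_right M q)) ^ q) :=
      Mod.H372.inW_jE_sub_pow w hS hV M (dvd_refl M)
    have hJ := jE_unit hS hV M (dvd_mul_right M q)
    have hJ0 : Mod.jE E (M * q) M (dvd_mul_right M q) ≠ 0 :=
      Mod.H873.jE_ne_zero (E := E) (M * q) M (dvd_mul_right M q)
    have hw0 : Mod.cE A E (M * q) w ≠ 0 := Mod.H372.cE_ne_zero w hS (M * q)
    have hpinv : ((Mod.jE E (M * q) M (dvd_mul_right M q)) ^ q)⁻¹ ∈ V := by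
      rw [← inv_pow]
      exact pow_mem hJ.2 q
    rw [map_mul, map_inv₀, hWc, map_sub, map_one]
    unfold ePrime
    rw [map_mul, map_inv₀, map_pow, hW1, hWq]
    have e : (1 - Mod.jE E (M * q) (M * q) (dvd_refl _) *
        ((Mod.jE E (M * q) M (dvd_mul_right M q)) ^ q)⁻¹) * (Mod.cE A E (M * q) w)⁻¹ =
        -((Mod.jE E (M * q) (M * q) (dvd_refl _) -
          (Mod.jE E (M * q) M (dvd_mul_right M q)) ^ q) * (Mod.cE A E (M * q) w)⁻¹) *
          ((Mod.jE E (M * q) M (dvd_mul_right M q)) ^ q)⁻¹ := by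
      have hJq : (Mod.jE E (M * q) M (dvd_mul_right M q)) ^ q ≠ 0 := pow_ne_zero _ hJ0
      field_simp
      ring
    rw [e]
    exact V.mul_mem _ _ (V.neg_mem _ hK) hpinv
  have h3 := hle₂ h1e
  have h4 : (1 : ↥(chartInf A E M q)) ∈ cuspIdeal Q hS hV hQ hcut.le₁ := by
    have := Ideal.add_mem _ h3 hen
    rwa [sub_add_cancel] at this
  exact (cuspIdeal_isPrime Q hS hV hQ hcut.le₁).ne_top ((Ideal.eq_top_iff_one _).mpr h4)

/-! ### From the purity datum to the order at the cusp -/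

/-- **PURE-FIN**: a purity datum at the closed point of the cusp `Q`, for a unit `u` of `V∞`,
gives `m ∣ ord_Q (ρ u)`. -/
theorem dvd_ord_of_pureAt (hcut₁ : ∀ b : ↥(chartInf A E M q),
      b ∈ ci.p₁ ↔ (b : ↥(Mod.FE E (M * q))) *
        (algebraMap ↥(Mod.RE A E) ↥(Mod.FE E (M * q)) w)⁻¹ ∈ V)
    (m : ℕ) (u : ↥(Mod.FE E (M * q))) (hu : u ∈ V) (hu' : u⁻¹ ∈ V) (hu0 : u ≠ 0)
    (hpure : PureAt (chartInf A E M q) ci m u (cuspIdeal Q hS hV hQ hle)) :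
    (m : ℤ) ∣ Q.ord (redE E hS.q_prime hS.q_not_dvd hS.lies_over hV ⟨u, hu⟩ :
      ↥(modularFunctionFieldFullC (kA A) M)) := by
  obtain ⟨d, hd0, ⟨an, bn, han, hbn, hn⟩, ⟨ad, bd, had, hbd, hd⟩, -⟩ := hpure
  have key : u * (ad : ↥(Mod.FE E (M * q))) ^ m * (bn : ↥(Mod.FE E (M * q))) =
      (an : ↥(Mod.FE E (M * q))) * (bd : ↥(Mod.FE E (M * q))) ^ m := by
    rw [← hd, ← hn]
    ring
  have keyV : (⟨u, hu⟩ : ↥V) * ⟨(ad : ↥(Mod.FE E (M * q))), hle ad ad.2⟩ ^ m *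
      ⟨(bn : ↥(Mod.FE E (M * q))), hle bn bn.2⟩ =
      ⟨(an : ↥(Mod.FE E (M * q))), hle an an.2⟩ *
        ⟨(bd : ↥(Mod.FE E (M * q))), hle bd bd.2⟩ ^ m := Subtype.ext key
  have h := congrArg (redE E hS.q_prime hS.q_not_dvd hS.lies_over hV) keyV
  rw [map_mul, map_mul, map_pow, map_mul, map_pow] at h
  obtain ⟨han0, hano⟩ := ord_eq_zero_of_not_mem Q hS hV hQ hle an han
  obtain ⟨hbn0, hbno⟩ := ord_eq_zero_of_not_mem Q hS hV hQ hle bn hbn
  have had0 : redE E hS.q_prime hS.q_not_dvd hS.lies_over hV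
      ⟨(ad : ↥(Mod.FE E (M * q))), hle ad ad.2⟩ ≠ 0 :=
    fun h0 => had ((mem_p₁_iff hS hV hle ci hcut₁ ad).mpr h0)
  have hbd0 : redE E hS.q_prime hS.q_not_dvd hS.lies_over hV
      ⟨(bd : ↥(Mod.FE E (M * q))), hle bd bd.2⟩ ≠ 0 :=
    fun h0 => hbd ((mem_p₁_iff hS hV hle ci hcut₁ bd).mpr h0)
  have hρu := redE_ne_zero_of_unit hS.q_prime hS.q_not_dvd hS.lies_over hV u hu hu' hu0
  have h2 := congrArg Q.ord h
  rw [Place.ord_mul Q (mul_ne_zero hρu (pow_ne_zero _ had0)) hbn0,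
    Place.ord_mul Q hρu (pow_ne_zero _ had0), Place.ord_mul Q han0 (pow_ne_zero _ hbd0),
    Fermat.Agent.A2.H129.ord_pow, Fermat.Agent.A2.H129.ord_pow, hano, hbno] at h2
  refine ⟨Q.ord (redE E hS.q_prime hS.q_not_dvd hS.lies_over hV
      ⟨(bd : ↥(Mod.FE E (M * q))), hle bd bd.2⟩ : ↥(modularFunctionFieldFullC (kA A) M)) -
    Q.ord (redE E hS.q_prime hS.q_not_dvd hS.lies_over hV
      ⟨(ad : ↥(Mod.FE E (M * q))), hle ad ad.2⟩ : ↥(modularFunctionFieldFullC (kA A) M)), ?_⟩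
  linarith

end CuspPoint

end Fermat.Agent.Ribet.H644

end
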