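import Fermat.Agent.Ribet.H997.RedField
import Fermat.Agent.S37.H940.QSeries

/-!
# RIBET, leaf CUSP (purity at the cusps) — the reduction homomorphism on `V∞`  (helper644)

Level `M q`, `q ∤ M`, `A ⊆ ℚ̄` over `q`, `k = kA A`, `F_k = modularFunctionFieldFullC k M`.

* `cuspFrac M q A`     : the `S37.H940.FracData` of integral `t`-series of level `M q` whose
                         reduction lies in `F_k` (all of them, by `H997` REDFIELD);
* `rhoBar_spec`        : `f U₂ = U₁` (`U₂` primitive) ⟹ `f ∈ V`, `ρ f · Ū₂ = Ū₁`;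
* `redE`               : the reduction `V∞ →+* F_k` at a level `E` (`V∞` any `IsVinf`);
* `redE_spec`, `redE_cE`, `redE_eq_zero_iff`, `redE_jE`.
-/

set_option autoImplicit false
set_option linter.unusedSectionVars false
set_option linter.style.haveILetI false
set_option synthInstance.maxHeartbeats 400000
set_option maxHeartbeats 1600000

noncomputable section

namespace Fermat.Agent.Ribet.H644

open AlgebraicCurve ModularCurve HahnSeries
open Fermat.Agent.S24 Fermat.Agent.A2.H708 Fermat.Agent.Ribet.H884 Fermat.Agent.Ribet.H997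
open Fermat.Agent.S37.H940

section Qbar

variable (M q : ℕ) [NeZero M] [NeZero q] (A : ValuationSubring Kbar)

/-- The context of fractions of integral `t`-series of level `M q` with reduction in
`k(X₀(M))`. -/
def cuspFrac : FracData Kbar ↥(modularFunctionFieldBar (M * q)) (kA A)
    ↥(modularFunctionFieldFullC (kA A) M) :=
  qData A (IsLocalRing.residue A) (modularFunctionFieldBar (M * q))
    (modularFunctionFieldFullC (kA A) M) IsLocalRing.residue_surjective
    (fun a => residue_eq_zero_iff_not_isUnit' a)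

variable {M q A}

/-- every integral series of level `M q` has its reduction in `k(X₀(M))`. -/
theorem isIntQ_of_incl (hq : q.Prime) (hqM : ¬ q ∣ M) (hA : A.LiesOverPrime q)
    (f : ↥(modularFunctionFieldBar (M * q))) (U : LaurentSeries A)
    (h : incl A U = (f : LaurentSeries Kbar)) :
    IsIntQ A (IsLocalRing.residue A) (modularFunctionFieldBar (M * q))
      (modularFunctionFieldFullC (kA A) M) f := by
  refine ⟨U, h, ?_⟩
  by_cases hU : red A U = 0
  · have : coeffMap (IsLocalRing.residue A) U = 0 := hU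
    rw [this]
    exact zero_mem _
  · have hred : IsRedSer A (incl A U) (red A U) :=
      ⟨1, U, 1, one_ne_zero, hU, by rw [map_one]; exact one_ne_zero,
        by rw [map_one, mul_one, cst_one, one_mul], by rw [map_one, mul_one]⟩
    have hmem : incl A U ∈ modularFunctionFieldBar (M * q) := by
      rw [h]
      exact f.2
    exact isRedSer_mem_of_level_mul hq hqM hA hmem hred

/-- **The reduction of a fraction.** -/
theorem rhoBar_spec (hq : q.Prime) (hqM : ¬ q ∣ M) (hA : A.LiesOverPrime q)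
    (f : ↥(modularFunctionFieldBar (M * q))) (U₁ U₂ : LaurentSeries A) (h₂ : red A U₂ ≠ 0)
    (hm₂ : incl A U₂ ∈ modularFunctionFieldBar (M * q))
    (he : (f : LaurentSeries Kbar) * incl A U₂ = incl A U₁) :
    ∃ hf : f ∈ (cuspFrac M q A).V,
      (((cuspFrac M q A).ρ ⟨f, hf⟩ : ↥(modularFunctionFieldFullC (kA A) M)) :
        LaurentSeries (kA A)) * red A U₂ = red A U₁ := by
  have hm₁ : incl A U₁ ∈ modularFunctionFieldBar (M * q) := by
    rw [← he]
    exact mul_mem f.2 hm₂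
  have hi₁ := isIntQ_of_incl hq hqM hA ⟨incl A U₁, hm₁⟩ U₁ rfl
  have hi₂ := isIntQ_of_incl hq hqM hA ⟨incl A U₂, hm₂⟩ U₂ rfl
  set a : (cuspFrac M q A).O := ⟨⟨incl A U₁, hm₁⟩, hi₁⟩ with ha
  set b : (cuspFrac M q A).O := ⟨⟨incl A U₂, hm₂⟩, hi₂⟩ with hb
  have hρa : (((cuspFrac M q A).ρ₀ a : ↥(modularFunctionFieldFullC (kA A) M)) :
      LaurentSeries (kA A)) = red A U₁ :=
    coe_redQ A (IsLocalRing.residue A) _ _ ⟨⟨incl A U₁, hm₁⟩, hi₁⟩ (y := U₁) rfl
  have hρb : (((cuspFrac M q A).ρ₀ b : ↥(modularFunctionFieldFullC (kA A) M)) :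
      LaurentSeries (kA A)) = red A U₂ :=
    coe_redQ A (IsLocalRing.residue A) _ _ ⟨⟨incl A U₂, hm₂⟩, hi₂⟩ (y := U₂) rfl
  have hb0 : (cuspFrac M q A).ρ₀ b ≠ 0 := by
    intro h0
    apply h₂
    rw [← hρb, h0]
    rfl
  have hab : (f : ↥(modularFunctionFieldBar (M * q))) *
      ((b : ↥(modularFunctionFieldBar (M * q)))) = (a : ↥(modularFunctionFieldBar (M * q))) :=
    Subtype.ext he
  have hf : f ∈ (cuspFrac M q A).V := ⟨a, b, hb0, hab⟩
  refine ⟨hf, ?_⟩
  rw [(cuspFrac M q A).ρ_apply ⟨f, hf⟩ hb0 hab, IntermediateField.coe_div, hρa, hρb,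
    div_mul_cancel₀ _ h₂]

/-- constants -/
theorem rhoBar_const (a : A) :
    ∃ hf : algebraMap Kbar ↥(modularFunctionFieldBar (M * q)) (a : Kbar) ∈ (cuspFrac M q A).V,
      (cuspFrac M q A).ρ ⟨_, hf⟩ =
        algebraMap (kA A) ↥(modularFunctionFieldFullC (kA A) M) (IsLocalRing.residue A a) :=
  ⟨(cuspFrac M q A).ctx.A_mem a, (cuspFrac M q A).ctx.ρ_A a⟩

end Qbar

/-! ## The reduction at a level `E` -/

section ELevel

open Fermat.Agent.A2 Fermat.Agent.A2.T1.H669

variable {M q : ℕ} [NeZero M] [NeZero q] {A : ValuationSubring Kbar}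
  (E : IntermediateField ℚ Kbar)

/-- `ι` maps `V∞` of level `E` into the ring of fractions. -/
theorem iota_mem_V (hq : q.Prime) (hqM : ¬ q ∣ M) (hA : A.LiesOverPrime q)
    {V : ValuationSubring ↥(Mod.FE E (M * q))} (hV : Mod.IsVinf A E (M * q) V)
    (f : ↥(Mod.FE E (M * q))) (hf : f ∈ V) :
    iota E (modularFunctionFieldFull (M * q)) f ∈ (cuspFrac M q A).V := by
  obtain ⟨U₁, U₂, h₂, hm₂, he⟩ := (hV f).mp hf
  have he' : ((iota E (modularFunctionFieldFull (M * q)) f :
      ↥(modularFunctionFieldBar (M * q))) : LaurentSeries Kbar) * incl A (upA A E U₂) =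
      incl A (upA A E U₁) := by
    rw [coe_iota, incl_upA, incl_upA, ← map_mul, he]
  have hm₂' : incl A (upA A E U₂) ∈ modularFunctionFieldBar (M * q) := by
    rw [incl_upA]
    exact Fermat.Agent.S18.H602.coeffMap_mem_laurentBaseChange _ _ hm₂
  exact (rhoBar_spec hq hqM hA _ _ _ (red_upA_ne_zero E h₂) hm₂' he').1

/-- **The reduction homomorphism** `V∞ → k(X₀(M))` at the level `E`. -/
def redE (hq : q.Prime) (hqM : ¬ q ∣ M) (hA : A.LiesOverPrime q)
    {V : ValuationSubring ↥(Mod.FE E (M * q))} (hV : Mod.IsVinf A E (M * q) V) :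
    ↥V →+* ↥(modularFunctionFieldFullC (kA A) M) :=
  (cuspFrac M q A).ρ.comp
    (((iota E (modularFunctionFieldFull (M * q))).comp V.subtype).codRestrict
      (cuspFrac M q A).V (fun f => iota_mem_V E hq hqM hA hV f f.2))

variable {E}

theorem redE_spec (hq : q.Prime) (hqM : ¬ q ∣ M) (hA : A.LiesOverPrime q)
    {V : ValuationSubring ↥(Mod.FE E (M * q))} (hV : Mod.IsVinf A E (M * q) V)
    (f : ↥V) (U₁ U₂ : LaurentSeries ↥(Mod.RE A E)) (h₂ : red (Mod.RE A E) U₂ ≠ 0)
    (hm₂ : incl (Mod.RE A E) U₂ ∈ Mod.FE E (M * q))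
    (he : ((f : ↥(Mod.FE E (M * q))) : LaurentSeries E) * incl (Mod.RE A E) U₂ =
      incl (Mod.RE A E) U₁) :
    ((redE E hq hqM hA hV f : ↥(modularFunctionFieldFullC (kA A) M)) :
      LaurentSeries (kA A)) * red A (upA A E U₂) = red A (upA A E U₁) := by
  have he' : ((iota E (modularFunctionFieldFull (M * q)) (f : ↥(Mod.FE E (M * q))) :
      ↥(modularFunctionFieldBar (M * q))) : LaurentSeries Kbar) * incl A (upA A E U₂) =
      incl A (upA A E U₁) := by
    rw [coe_iota, incl_upA, incl_upA, ← map_mul, he]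
  have hm₂' : incl A (upA A E U₂) ∈ modularFunctionFieldBar (M * q) := by
    rw [incl_upA]
    exact Fermat.Agent.S18.H602.coeffMap_mem_laurentBaseChange _ _ hm₂
  obtain ⟨hf, h⟩ := rhoBar_spec hq hqM hA _ _ _ (red_upA_ne_zero E h₂) hm₂' he'
  exact h

/-- the reduction of an integral series -/
theorem redE_of_incl (hq : q.Prime) (hqM : ¬ q ∣ M) (hA : A.LiesOverPrime q)
    {V : ValuationSubring ↥(Mod.FE E (M * q))} (hV : Mod.IsVinf A E (M * q) V)
    (f : ↥V) (U : LaurentSeries ↥(Mod.RE A E))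
    (he : ((f : ↥(Mod.FE E (M * q))) : LaurentSeries E) = incl (Mod.RE A E) U) :
    ((redE E hq hqM hA hV f : ↥(modularFunctionFieldFullC (kA A) M)) :
      LaurentSeries (kA A)) = red A (upA A E U) := by
  have h := redE_spec hq hqM hA hV f U 1 (by rw [map_one]; exact one_ne_zero)
    (by rw [map_one]; exact one_mem _) (by rw [map_one, mul_one, he])
  rwa [map_one, map_one, mul_one] at h

/-- the reduction of a constant -/
theorem redE_cE (hq : q.Prime) (hqM : ¬ q ∣ M) (hA : A.LiesOverPrime q)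
    {V : ValuationSubring ↥(Mod.FE E (M * q))} (hV : Mod.IsVinf A E (M * q) V)
    (r : ↥(Mod.RE A E)) (hr : Mod.cE A E (M * q) r ∈ V) :
    redE E hq hqM hA hV ⟨Mod.cE A E (M * q) r, hr⟩ =
      algebraMap (kA A) ↥(modularFunctionFieldFullC (kA A) M)
        (IsLocalRing.residue A (toA' A E r)) := by
  apply Subtype.ext
  have he : (((⟨Mod.cE A E (M * q) r, hr⟩ : ↥V) : ↥(Mod.FE E (M * q))) : LaurentSeries E) =
      incl (Mod.RE A E) (cstA (Mod.RE A E) r) := by
    rw [incl_cstA]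
    rfl
  rw [redE_of_incl hq hqM hA hV _ _ he, upA_cstA, red_cstA]
  show _ = algebraMap (kA A) (LaurentSeries (kA A)) _
  rw [algebraMap_laurentSeries_eq_single]

/-- the reduction of a uniformiser vanishes -/
theorem redE_cE_unif (hq : q.Prime) (hqM : ¬ q ∣ M) (hA : A.LiesOverPrime q)
    {V : ValuationSubring ↥(Mod.FE E (M * q))} (hV : Mod.IsVinf A E (M * q) V)
    {w : ↥(Mod.RE A E)} (hw : ¬ IsUnit w) (hr : Mod.cE A E (M * q) w ∈ V) :
    redE E hq hqM hA hV ⟨Mod.cE A E (M * q) w, hr⟩ = 0 := by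
  rw [redE_cE]
  have : IsLocalRing.residue A (toA' A E w) = 0 := by
    rw [residue_eq_zero_iff_not_isUnit', isUnit_toA'_iff]
    exact hw
  rw [this, map_zero]

/-- **the kernel of the reduction is `w V∞`.** -/
theorem redE_eq_zero_iff (hq : q.Prime) (hqM : ¬ q ∣ M) (hA : A.LiesOverPrime q)
    [IsDiscreteValuationRing ↥(Mod.RE A E)]
    {V : ValuationSubring ↥(Mod.FE E (M * q))} (hV : Mod.IsVinf A E (M * q) V)
    {w : ↥(Mod.RE A E)} (hw : Irreducible w) (f : ↥V) :
    redE E hq hqM hA hV f = 0 ↔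
      Mod.InW A E (M * q) V w (f : ↥(Mod.FE E (M * q))) := by
  have hMq : M * q ≠ 0 := Nat.mul_ne_zero (NeZero.ne M) hq.ne_zero
  obtain ⟨hunif, -, -⟩ := Mod.H553.vinfBasic A E w (M * q) hMq inferInstance hw V hV
  have hwV : Mod.cE A E (M * q) w ∈ V := hunif.mem
  have hw0 : Mod.cE A E (M * q) w ≠ 0 := by
    intro h0
    apply hunif.inv_not_mem
    rw [h0, inv_zero]
    exact V.zero_mem
  constructor
  · intro h0
    by_cases hf0 : (f : ↥(Mod.FE E (M * q))) = 0
    · show (f : ↥(Mod.FE E (M * q))) * (Mod.cE A E (M * q) w)⁻¹ ∈ V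
      rw [hf0, zero_mul]
      exact V.zero_mem
    · refine hunif.gen _ f.2 ?_
      intro hinv
      have h1 : f * ⟨(f : ↥(Mod.FE E (M * q)))⁻¹, hinv⟩ = 1 :=
        Subtype.ext (mul_inv_cancel₀ hf0)
      have h2 := congrArg (redE E hq hqM hA hV) h1
      rw [map_mul, h0, zero_mul, map_one] at h2
      exact zero_ne_one h2
  · intro h
    have h1 : f = ⟨Mod.cE A E (M * q) w, hwV⟩ *
        ⟨(f : ↥(Mod.FE E (M * q))) * (Mod.cE A E (M * q) w)⁻¹, h⟩ := by
      apply Subtype.ext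
      show (f : ↥(Mod.FE E (M * q))) = Mod.cE A E (M * q) w *
        ((f : ↥(Mod.FE E (M * q))) * (Mod.cE A E (M * q) w)⁻¹)
      field_simp
    rw [h1, map_mul, redE_cE_unif hq hqM hA hV hw.not_isUnit, zero_mul]

/-- the reduction of `j_d` is `j(t^d)` over `k`. -/
theorem redE_jE (hq : q.Prime) (hqM : ¬ q ∣ M) (hA : A.LiesOverPrime q)
    {V : ValuationSubring ↥(Mod.FE E (M * q))} (hV : Mod.IsVinf A E (M * q) V)
    (d : ℕ) [NeZero d] (hd : d ∣ M * q) (hj : Mod.jE E (M * q) d hd ∈ V) :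
    ((redE E hq hqM hA hV ⟨Mod.jE E (M * q) d hd, hj⟩ :
      ↥(modularFunctionFieldFullC (kA A) M)) : LaurentSeries (kA A)) = jqNModC (kA A) d := by
  have he : (((⟨Mod.jE E (M * q) d hd, hj⟩ : ↥V) : ↥(Mod.FE E (M * q))) : LaurentSeries E) =
      incl (Mod.RE A E) (castA (Mod.RE A E) (jInt d)) := by
    rw [incl_castA]
    exact Mod.H553.coe_jE (E := E) (M * q) d hd
  rw [redE_of_incl hq hqM hA hV _ _ he]
  show coeffMap (IsLocalRing.residue A) (coeffMap (toA' A E)
    (coeffMap (Int.castRingHom ↥(Mod.RE A E)) (jqNModC ℤ d))) = _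
  rw [coeffMap_jqNModC, coeffMap_jqNModC, coeffMap_jqNModC]

end ELevel

end Fermat.Agent.Ribet.H644

end
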